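import Mathlib
import Fermat.Agent.MUL.Orig.S14.Interface
import Fermat.Agent.MUL.Lib.FrobDensity.EulerZeta
import Fermat.Agent.MUL.Orig.S13.AtPCore

section MergeWrap_S14_Analytic_Defs -- from S14/Analytic/Defs.lean

/-!
# S14, H2 Route II (analytic second inequality): definitions and interface statements

Blueprint: `NOTES/blueprint-S14-H2-analytic.md` (helper70).  As in `S14/Interface.lean`, the
statements exchanged between the work packages are `Prop`-valued *definitions*, so that every file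
compiles without placeholders:

* the owner of a work package proves `theorem xxx : Fermat.Agent.S14An.XxxStatement`;
* a user takes `(h : Fermat.Agent.S14An.XxxStatement)` as a hypothesis.

Chain:  `LatticeCountStatement` (P1) + `NormLeOneFrontierStatement` (P2)
          ⟹ (P3) `ClassCountStatement` ⟹ (P4) `LBoundStatement`;
        `LBoundStatement` + `EulerCharStatement` (P5) + `CharProdStatement` (P6)
          + `NormClassPrimeSumStatement` (P7) ⟹ (P8) `Fermat.Agent.S14.SecondIneq`.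
-/

set_option autoImplicit false

open NumberField Filter Topology IsDedekindDomain
open scoped nonZeroDivisors Pointwise

namespace Fermat.Agent.S14An

/-! ## P1: lattice points in dilates of a set with Lipschitz boundary (pure geometry) -/

/-- `S` is covered by finitely many Lipschitz images of the unit cube `[0,1]^m`. -/
def LipCover {E : Type*} [PseudoEMetricSpace E] (m : ℕ) (S : Set E) : Prop :=
  ∃ (J : ℕ) (φ : Fin J → (Fin m → ℝ) → E) (Λ : NNReal),
    (∀ j, LipschitzOnWith Λ (φ j) (Set.Icc 0 1)) ∧ S ⊆ ⋃ j, φ j '' Set.Icc 0 1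

/-- The number of points of the lattice `span ℤ (range b)` in the dilate `t • D`. -/
noncomputable def latN {ι E : Type*} [AddCommGroup E] [Module ℝ E] (b : Module.Basis ι ℝ E)
    (D : Set E) (t : ℝ) : ℕ :=
  Nat.card {x : E // x ∈ Submodule.span ℤ (Set.range b) ∧ x ∈ t • D}

/-- **(P1)** If `D` is bounded and its frontier is covered by finitely many Lipschitz images of
`[0,1]^(n-1)`, `n = dim E`, then refining the lattice by `k` multiplies the number of lattice
points in `t • D` by `k ^ n`, up to an error `O(k ^ n * t ^ (n - 1))`, uniformly in `t ≥ 1`, `k ≥ 1`.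
(No measure theory: every closed fundamental parallelepiped `z + ∑ [0,1] b_i` which does not meet
`frontier (t • D)` is inside or outside `t • D`; the others are `O(t ^ (n - 1))` in number.) -/
def LatticeCountStatement : Prop :=
  ∀ (ι E : Type) [Fintype ι] [NormedAddCommGroup E] [NormedSpace ℝ E] [FiniteDimensional ℝ E]
    (b : Module.Basis ι ℝ E) (D : Set E) (m : ℕ), Bornology.IsBounded D →
    m + 1 = Fintype.card ι → LipCover m (frontier D) →
    ∃ C : ℝ, ∀ t : ℝ, 1 ≤ t → ∀ k : ℕ, 1 ≤ k →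
      |(latN b D (k * t) : ℝ) - (k : ℝ) ^ (m + 1) * latN b D t| ≤ C * (k : ℝ) ^ (m + 1) * t ^ m

/-! ## P2: the frontier of `normLeOne K` -/

/-- **(P2)** The frontier of `normLeOne K` (elements of the fundamental cone of norm `≤ 1`, in
`mixedSpace K`, with its sup metric; the `Fintype` instances on the real / complex places are the
classical ones, as in Mathlib) is covered by finitely many Lipschitz images of `[0,1]^(d-1)`,
`d = [K : ℚ]`. -/
def NormLeOneFrontierStatement : Prop :=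
  open scoped Classical in
  ∀ (K : Type) [Field K] [NumberField K] (m : ℕ), m + 1 = Module.finrank ℚ K →
    LipCover m (frontier (mixedEmbedding.fundamentalCone.normLeOne K))

/-! ## P3: ideals of bounded norm in a class, with a power saving error term -/

/-- The number of nonzero integral ideals of norm `≤ x` in the class `C`. -/
noncomputable def classCount (K : Type*) [Field K] [NumberField K] (C : ClassGroup (𝓞 K))
    (x : ℝ) : ℕ :=
  Nat.card {I : (Ideal (𝓞 K))⁰ //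
    (Ideal.absNorm (I : Ideal (𝓞 K)) : ℝ) ≤ x ∧ ClassGroup.mk0 I = C}

/-- **(P3)** `#{I ∈ C : N(I) ≤ x} = κ x + O(x ^ (1 - 1/d))`, with `κ` independent of the class. -/
def ClassCountStatement : Prop :=
  ∀ (K : Type) [Field K] [NumberField K], ∃ κ B : ℝ, ∀ (C : ClassGroup (𝓞 K)) (x : ℝ), 1 ≤ x →
    |(classCount K C x : ℝ) - κ * x| ≤ B * x ^ (1 - 1 / (Module.finrank ℚ K : ℝ))

/-! ## P4: `L(s, f)` is bounded near `s = 1` when `∑ f = 0` -/

/-- The class of an ideal (junk value `1` at `⊥`). -/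
noncomputable def classOf (K : Type*) [Field K] [NumberField K] (I : Ideal (𝓞 K)) :
    ClassGroup (𝓞 K) :=
  open scoped Classical in
  if h : I = ⊥ then 1 else ClassGroup.mk0 ⟨I, mem_nonZeroDivisors_of_ne_zero h⟩

/-- The weight `f([I]) N(I)^(-s)` (zero at `I = ⊥`). -/
noncomputable def twWeight (K : Type*) [Field K] [NumberField K] (f : ClassGroup (𝓞 K) → ℂ)
    (s : ℝ) (I : Ideal (𝓞 K)) : ℂ :=
  f (classOf K I) * (FrobDensity.normWeight K s I : ℂ)

/-- `L(s, f) = ∑_I f([I]) N(I)^(-s)` for real `s`. -/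
noncomputable def LVal (K : Type*) [Field K] [NumberField K] (f : ClassGroup (𝓞 K) → ℂ)
    (s : ℝ) : ℂ :=
  ∑' I : Ideal (𝓞 K), twWeight K f s I

/-- **(P4)** If `∑_c f(c) = 0` then `L(s, f)` is bounded on `(1, 2]`. -/
def LBoundStatement : Prop :=
  ∀ (K : Type) [Field K] [NumberField K] (f : ClassGroup (𝓞 K) → ℂ), ∑ c, f c = 0 →
    ∃ B : ℝ, ∀ s : ℝ, 1 < s → s ≤ 2 → ‖LVal K f s‖ ≤ B

/-! ## P5: Euler product for `L(s, χ)`, sieve form -/

/-- **(P5)** For a character `χ` of the class group and a finite set `T` of primes: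
`‖L(s,χ)‖ * ∏_{𝔭 ∈ T} ‖1 - χ(𝔭) N𝔭^(-s)‖ ≥ 1 - (sieveSum T - 1)`, where `sieveSum T` is the sum of
`N(I)^(-s)` over the ideals prime to `T` (which tends to `1`, `FrobDensity.tendsto_sieveSum`). -/
def EulerCharStatement : Prop :=
  ∀ (K : Type) [Field K] [NumberField K] (χ : ClassGroup (𝓞 K) →* ℂˣ) (s : ℝ), 1 < s →
    ∀ T : Finset (HeightOneSpectrum (𝓞 K)),
      2 - FrobDensity.sieveSum (FrobDensity.normWeight K s) T ≤
        ‖LVal K (fun c => (χ c : ℂ)) s‖ *
          ∏ 𝔭 ∈ T, ‖1 - twWeight K (fun c => (χ c : ℂ)) s 𝔭.asIdeal‖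

/-! ## P6: characters of a finite abelian group -/

/-- **(P6)** For a finite abelian group `G`, `g : G` and `0 ≤ x < 1`:
`∏_χ ‖1 - χ(g) x‖ ≤ 1`, with value `(1 - x) ^ |G|` when `g = 1`.
(`log ‖1 - z‖⁻¹ = Re ∑ z^k / k` and `∑_χ χ(g^k) ∈ {0, |G|}`.) -/
def CharProdStatement : Prop :=
  ∀ (G : Type) [CommGroup G] [Fintype G] [Fintype (G →* ℂˣ)] (g : G) (x : ℝ), 0 ≤ x → x < 1 →
    (∏ χ : G →* ℂˣ, ‖1 - (χ g : ℂ) * (x : ℂ)‖) ≤ 1 ∧
      (g = 1 → (∏ χ : G →* ℂˣ, ‖1 - (χ g : ℂ) * (x : ℂ)‖) = (1 - x) ^ Fintype.card G)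

/-! ## P7: primes whose class is a norm class -/

/-- **(P7)** For a finite extension `M/E` of number fields of degree `n`, the primes `𝔮` of `E`
whose class is a norm class (e.g. those with a prime of residue degree one above them) satisfy
`∑ N𝔮^(-s) ≥ (1/n) log (1/(s-1)) - B` for `s` close to `1`. -/
def NormClassPrimeSumStatement : Prop :=
  ∀ (E M : Type) [Field E] [NumberField E] [Field M] [NumberField M] [Algebra E M],
    ∃ B δ : ℝ, 0 < δ ∧ ∀ s : ℝ, 1 < s → s < 1 + δ →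
      (1 / (Module.finrank E M : ℝ)) * Real.log (1 / (s - 1)) - B ≤
        ∑' 𝔮 : HeightOneSpectrum (𝓞 E),
          open scoped Classical in
          if classOf E 𝔮.asIdeal ∈ S14.normClasses E M then
            FrobDensity.normWeight E s 𝔮.asIdeal else 0

end Fermat.Agent.S14An
end MergeWrap_S14_Analytic_Defs

section MergeWrap_S14_Analytic_LatticeCount -- from S14/Analytic/LatticeCount.lean

set_option autoImplicit false

open Filter Topology
open scoped Pointwise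

namespace Fermat.Agent.S14An.LatticeCount

variable {ι : Type} [Fintype ι]

/-- The real vector attached to an integer vector. -/
def toR (z : ι → ℤ) : ι → ℝ := fun i => (z i : ℝ)

/-- The closed unit cube with lower corner `z`. -/
def cube (z : ι → ℤ) : Set (ι → ℝ) := Set.Icc (toR z) (toR z + 1)

omit [Fintype ι] in
lemma toR_mem_cube (z : ι → ℤ) : toR z ∈ cube z :=
  ⟨le_rfl, fun i => by simp [toR]⟩

omit [Fintype ι] in
lemma toR_injective : Function.Injective (toR : (ι → ℤ) → ι → ℝ) := by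
  intro a b h
  funext i
  have := congrFun h i
  simpa [toR] using this

/-- integer points in a sup-ball -/
def zBall (c : ι → ℝ) (R : ℝ) : Set (ι → ℤ) := {z | ∀ i, |(z i : ℝ) - c i| ≤ R}

lemma zBall_finite_ncard (c : ι → ℝ) (R : ℝ) :
    (zBall c R).Finite ∧ (zBall c R).ncard ≤ (⌊2 * R⌋₊ + 1) ^ Fintype.card ι := by
  classical
  set F : Finset (ι → ℤ) := Fintype.piFinset (fun i => Finset.Icc ⌈c i - R⌉ ⌊c i + R⌋) with hF
  have hsub : zBall c R ⊆ (F : Set (ι → ℤ)) := by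
    intro z hz
    rw [Finset.mem_coe, hF, Fintype.mem_piFinset]
    intro i
    rw [Finset.mem_Icc]
    have := abs_le.mp (hz i)
    exact ⟨Int.ceil_le.mpr (by linarith), Int.le_floor.mpr (by linarith)⟩
  have hfin : (zBall c R).Finite := F.finite_toSet.subset hsub
  refine ⟨hfin, ?_⟩
  calc (zBall c R).ncard ≤ (F : Set (ι → ℤ)).ncard := Set.ncard_le_ncard hsub F.finite_toSet
    _ = F.card := Set.ncard_coe_finset F
    _ = ∏ i, (Finset.Icc ⌈c i - R⌉ ⌊c i + R⌋).card := by rw [hF, Fintype.card_piFinset]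
    _ ≤ ∏ _i : ι, (⌊2 * R⌋₊ + 1) := by
        refine Finset.prod_le_prod (fun _ _ => Nat.zero_le _) (fun i _ => ?_)
        rw [Int.card_Icc]
        by_cases hR : 0 ≤ R
        · have h1 : (⌊c i + R⌋ + 1 - ⌈c i - R⌉ : ℤ) ≤ (⌊2 * R⌋₊ : ℤ) + 1 := by
            have ha : ((⌊c i + R⌋ : ℤ) : ℝ) ≤ c i + R := Int.floor_le _
            have hb : c i - R ≤ ((⌈c i - R⌉ : ℤ) : ℝ) := Int.le_ceil _
            have hc : ((⌊c i + R⌋ - ⌈c i - R⌉ : ℤ) : ℝ) ≤ 2 * R := by push_cast; linarith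
            have hd : (⌊c i + R⌋ - ⌈c i - R⌉ : ℤ) ≤ ⌊2 * R⌋ := Int.le_floor.mpr hc
            have he : (⌊2 * R⌋ : ℤ) = (⌊2 * R⌋₊ : ℤ) := by
              rw [Int.natCast_floor_eq_floor (by linarith)]
            omega
          omega
        · rw [not_le] at hR
          have h1 : (⌊c i + R⌋ + 1 - ⌈c i - R⌉ : ℤ) ≤ 0 := by
            have ha : ((⌊c i + R⌋ : ℤ) : ℝ) ≤ c i + R := Int.floor_le _
            have hb : c i - R ≤ ((⌈c i - R⌉ : ℤ) : ℝ) := Int.le_ceil _
            have hc : ((⌊c i + R⌋ : ℤ) : ℝ) < ((⌈c i - R⌉ : ℤ) : ℝ) := by linarith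
            have hd : (⌊c i + R⌋ : ℤ) < ⌈c i - R⌉ := by exact_mod_cast hc
            omega
          have : (⌊c i + R⌋ + 1 - ⌈c i - R⌉ : ℤ).toNat = 0 := Int.toNat_eq_zero.mpr h1
          omega
    _ = (⌊2 * R⌋₊ + 1) ^ Fintype.card ι := by simp


omit [Fintype ι] in
lemma isPreconnected_cube (z : ι → ℤ) : IsPreconnected (cube z) :=
  (convex_Icc _ _).isPreconnected

/-- A preconnected set which does not meet the frontier of `S` is inside `S` or disjoint from
`S`. -/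
lemma mem_iff_of_disjoint_frontier {X : Type*} [TopologicalSpace X] {S A : Set X}
    (hA : IsPreconnected A) (h : Disjoint A (frontier S)) {x y : X} (hx : x ∈ A) (hy : y ∈ A) :
    x ∈ S ↔ y ∈ S := by
  have hcov : A ⊆ interior S ∪ (closure S)ᶜ := by
    intro a ha
    by_cases h1 : a ∈ interior S
    · exact Or.inl h1
    · right
      intro h2
      exact (Set.disjoint_left.mp h ha) ⟨h2, h1⟩
  have hdisj : Disjoint (interior S) (closure S)ᶜ := by
    rw [Set.disjoint_left]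
    intro a ha hna
    exact hna (subset_closure (interior_subset ha))
  rcases hA.subset_or_subset isOpen_interior isClosed_closure.isOpen_compl hdisj hcov with h1 | h1
  · exact ⟨fun _ => interior_subset (h1 hy), fun _ => interior_subset (h1 hx)⟩
  · exact ⟨fun hxS => absurd (subset_closure hxS) (h1 hx),
      fun hyS => absurd (subset_closure hyS) (h1 hy)⟩

omit [Fintype ι] in
lemma mem_iff_of_good {S : Set (ι → ℝ)} {z : ι → ℤ} (h : Disjoint (cube z) (frontier S))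
    {x : ι → ℝ} (hx : x ∈ cube z) : x ∈ S ↔ toR z ∈ S :=
  mem_iff_of_disjoint_frontier (isPreconnected_cube z) h hx (toR_mem_cube z)

/-- The cubes meeting the frontier of `S`. -/
def badSet (S : Set (ι → ℝ)) : Set (ι → ℤ) := {z | ¬ Disjoint (cube z) (frontier S)}

/-- The integer points of `S`. -/
def zPts (S : Set (ι → ℝ)) : Set (ι → ℤ) := {z | toR z ∈ S}

/-- The points of `(1/k) ℤ^ι` in `S`, as integer vectors. -/
def zPtsDiv (k : ℕ) (S : Set (ι → ℝ)) : Set (ι → ℤ) := {y | (fun i => (y i : ℝ) / k) ∈ S}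

/-- quotient and remainder, coordinatewise -/
noncomputable def dm (k : ℕ) [NeZero k] : (ι → ℤ) ≃ (ι → ℤ) × (ι → Fin k) :=
  (Equiv.piCongrRight (fun _ => Int.divModEquiv k)).trans (Equiv.arrowProdEquivProdArrow _ _ _)

omit [Fintype ι] in
lemma dm_fst (k : ℕ) [NeZero k] (y : ι → ℤ) (i : ι) : ((dm k) y).1 i = y i / (k : ℤ) := by
  simp [dm, Int.divModEquiv]

omit [Fintype ι] in
lemma div_mem_cube (k : ℕ) [NeZero k] (y : ι → ℤ) :
    (fun i => (y i : ℝ) / k) ∈ cube ((dm k y).1) := by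
  have hk : (0 : ℝ) < k := Nat.cast_pos.mpr (Nat.pos_of_ne_zero (NeZero.ne k))
  have hkz : (0 : ℤ) < k := by exact_mod_cast Nat.pos_of_ne_zero (NeZero.ne k)
  constructor
  · intro i
    simp only [toR, dm_fst]
    rw [le_div_iff₀ hk]
    have := Int.ediv_mul_le (y i) hkz.ne'
    exact_mod_cast this
  · intro i
    simp only [toR, dm_fst, Pi.add_apply, Pi.one_apply]
    rw [div_le_iff₀ hk]
    have := Int.lt_ediv_add_one_mul_self (y i) hkz
    have h2 : ((y i : ℤ) : ℝ) < ((y i / (k : ℤ) + 1) * (k : ℤ) : ℤ) := by exact_mod_cast this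
    push_cast at h2
    linarith

lemma ncard_preimage_dm (k : ℕ) [NeZero k] (Z : Set (ι → ℤ)) (hZ : Z.Finite) :
    ((dm k) ⁻¹' (Z ×ˢ (Set.univ : Set (ι → Fin k)))).Finite ∧
    ((dm k) ⁻¹' (Z ×ˢ (Set.univ : Set (ι → Fin k)))).ncard = Z.ncard * k ^ Fintype.card ι := by
  have hfin : (Z ×ˢ (Set.univ : Set (ι → Fin k))).Finite := hZ.prod Set.finite_univ
  constructor
  · exact hfin.preimage (dm k).injective.injOn
  · rw [Set.ncard_preimage_of_injective_subset_range (dm k).injective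
      (by rw [(dm k).range_eq_univ]; exact Set.subset_univ _)]
    rw [Set.ncard_prod, Set.ncard_univ]
    congr 1
    classical
    rw [Nat.card_eq_fintype_card, Fintype.card_fun, Fintype.card_fin]

/-- **Key comparison**: `| #((1/k)ℤ^ι ∩ S) - k^n #(ℤ^ι ∩ S) | ≤ k^n #bad`. -/
lemma abs_ncard_sub_le (k : ℕ) [NeZero k] (S : Set (ι → ℝ)) (hS : (zPts S).Finite)
    (hbad : (badSet S).Finite) :
    (zPtsDiv k S).Finite ∧
    |((zPtsDiv k S).ncard : ℝ) - (k : ℝ) ^ Fintype.card ι * (zPts S).ncard| ≤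
      (k : ℝ) ^ Fintype.card ι * (badSet S).ncard := by
  have key : ∀ y : ι → ℤ, (dm k y).1 ∉ badSet S → (y ∈ zPtsDiv k S ↔ (dm k y).1 ∈ zPts S) := by
    intro y hy
    simp only [badSet, Set.mem_ofPred_eq, not_not] at hy
    exact mem_iff_of_good hy (div_mem_cube k y)
  have h1 : zPtsDiv k S ⊆ (dm k) ⁻¹' ((zPts S ∪ badSet S) ×ˢ Set.univ) := by
    intro y hy
    simp only [Set.mem_preimage, Set.mem_prod, Set.mem_univ, and_true, Set.mem_union]
    by_cases hb : (dm k y).1 ∈ badSet S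
    · exact Or.inr hb
    · exact Or.inl ((key y hb).mp hy)
  have h2 : (dm k) ⁻¹' (zPts S ×ˢ Set.univ) ⊆ zPtsDiv k S ∪ (dm k) ⁻¹' (badSet S ×ˢ Set.univ) := by
    intro y hy
    simp only [Set.mem_preimage, Set.mem_prod, Set.mem_univ, and_true] at hy
    simp only [Set.mem_union, Set.mem_preimage, Set.mem_prod, Set.mem_univ, and_true]
    by_cases hb : (dm k y).1 ∈ badSet S
    · exact Or.inr hb
    · exact Or.inl ((key y hb).mpr hy)
  obtain ⟨f1, c1⟩ := ncard_preimage_dm k (zPts S ∪ badSet S) (hS.union hbad)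
  obtain ⟨f2, c2⟩ := ncard_preimage_dm k (zPts S) hS
  obtain ⟨f3, c3⟩ := ncard_preimage_dm k (badSet S) hbad
  have hAfin : (zPtsDiv k S).Finite := f1.subset h1
  refine ⟨hAfin, ?_⟩
  have e1 : (zPtsDiv k S).ncard ≤ (zPts S ∪ badSet S).ncard * k ^ Fintype.card ι := by
    rw [← c1]; exact Set.ncard_le_ncard h1 f1
  have e1' : (zPts S ∪ badSet S).ncard ≤ (zPts S).ncard + (badSet S).ncard :=
    Set.ncard_union_le _ _
  have e2 : (zPts S).ncard * k ^ Fintype.card ι ≤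
      (zPtsDiv k S).ncard + (badSet S).ncard * k ^ Fintype.card ι := by
    rw [← c2, ← c3]
    exact (Set.ncard_le_ncard h2 (hAfin.union f3)).trans (Set.ncard_union_le _ _)
  have e1r : ((zPtsDiv k S).ncard : ℝ) ≤
      ((zPts S).ncard + (badSet S).ncard) * (k : ℝ) ^ Fintype.card ι := by
    have := e1.trans (Nat.mul_le_mul_right _ e1')
    exact_mod_cast this
  have e2r : ((zPts S).ncard : ℝ) * (k : ℝ) ^ Fintype.card ι ≤
      (zPtsDiv k S).ncard + (badSet S).ncard * (k : ℝ) ^ Fintype.card ι := by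
    exact_mod_cast e2
  rw [abs_le]
  constructor <;> nlinarith


/-! ### finiteness and the bound for the bad cubes -/

lemma zPts_finite_of_isBounded {S : Set (ι → ℝ)} (hS : Bornology.IsBounded S) :
    (zPts S).Finite := by
  obtain ⟨R, hR⟩ := hS.subset_closedBall (0 : ι → ℝ)
  refine (zBall_finite_ncard (0 : ι → ℝ) R).1.subset ?_
  intro z hz
  have h1 : toR z ∈ Metric.closedBall (0 : ι → ℝ) R := hR hz
  rw [mem_closedBall_zero_iff] at h1
  intro i
  have h2 : ‖toR z i‖ ≤ ‖toR z‖ := norm_le_pi_norm (toR z) i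
  simp only [toR, Real.norm_eq_abs] at h2
  simpa [toR] using h2.trans h1

/-- the grid points of `[0,1]^m` with mesh `1/M` -/
noncomputable def grid (m M : ℕ) (a : Fin m → Fin (M + 1)) : Fin m → ℝ :=
  fun i => ((a i : ℕ) : ℝ) / M

lemma grid_mem (m M : ℕ) (a : Fin m → Fin (M + 1)) :
    grid m M a ∈ Set.Icc (0 : Fin m → ℝ) 1 := by
  constructor
  · intro i
    simp only [grid, Pi.zero_apply]
    positivity
  · intro i
    simp only [grid, Pi.one_apply]
    rcases Nat.eq_zero_or_pos M with h | h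
    · subst h; simp
    · rw [div_le_one (by exact_mod_cast h)]
      have := (a i).2
      exact_mod_cast Nat.lt_succ_iff.mp this

lemma exists_grid_near (m M : ℕ) (hM : 0 < M) (u : Fin m → ℝ)
    (hu : u ∈ Set.Icc (0 : Fin m → ℝ) 1) :
    ∃ a : Fin m → Fin (M + 1), dist u (grid m M a) ≤ 1 / M := by
  have hMr : (0 : ℝ) < M := by exact_mod_cast hM
  have hfl : ∀ i, ⌊u i * M⌋₊ < M + 1 := by
    intro i
    rw [Nat.lt_succ_iff]
    have h1 : u i * M ≤ M := by
      have := hu.2 i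
      simp only [Pi.one_apply] at this
      nlinarith
    calc ⌊u i * M⌋₊ ≤ ⌊(M : ℝ)⌋₊ := Nat.floor_le_floor h1
      _ = M := Nat.floor_natCast M
  refine ⟨fun i => ⟨⌊u i * M⌋₊, hfl i⟩, ?_⟩
  rw [dist_pi_le_iff (by positivity)]
  intro i
  have h0 : 0 ≤ u i * M := by
    have := hu.1 i
    simp only [Pi.zero_apply] at this
    positivity
  have h1 : (⌊u i * M⌋₊ : ℝ) ≤ u i * M := Nat.floor_le h0
  have h2 : u i * M < ⌊u i * M⌋₊ + 1 := Nat.lt_floor_add_one _
  have hq : (⌊u i * M⌋₊ : ℝ) / M ≤ u i := by rw [div_le_iff₀ hMr]; exact h1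
  have hq2 : u i ≤ (⌊u i * M⌋₊ : ℝ) / M + 1 / M := by
    rw [← add_div, le_div_iff₀ hMr]; linarith
  simp only [grid]
  rw [Real.dist_eq, abs_le]
  constructor <;> linarith


omit [Fintype ι] in
lemma frontier_smul_set (t : ℝ) (ht : t ≠ 0) (D : Set (ι → ℝ)) :
    frontier (t • D) = t • frontier D := by
  have := (Homeomorph.smulOfNeZero t ht : (ι → ℝ) ≃ₜ (ι → ℝ)).image_frontier D
  simpa [Set.image_smul] using this.symm

lemma badSet_subset {m J : ℕ} (D : Set (ι → ℝ)) (φ : Fin J → (Fin m → ℝ) → (ι → ℝ))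
    (Λ : NNReal) (hLip : ∀ j, LipschitzOnWith Λ (φ j) (Set.Icc 0 1))
    (hcov : frontier D ⊆ ⋃ j, φ j '' Set.Icc 0 1) (t : ℝ) (ht : 1 ≤ t) :
    badSet (t • D) ⊆ ⋃ j : Fin J, ⋃ a : Fin m → Fin (⌈t⌉₊ + 1),
      zBall (t • φ j (grid m ⌈t⌉₊ a)) ((Λ : ℝ) + 1) := by
  intro z hz
  simp only [badSet, Set.mem_ofPred_eq, Set.not_disjoint_iff] at hz
  obtain ⟨x, hxc, hxf⟩ := hz
  have ht0 : t ≠ 0 := by linarith
  have htpos : 0 < t := by linarith
  rw [frontier_smul_set t ht0] at hxf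
  obtain ⟨y, hy, rfl⟩ := hxf
  obtain ⟨j, hj⟩ := Set.mem_iUnion.mp (hcov hy)
  obtain ⟨u, hu, rfl⟩ := hj
  have hM : 0 < ⌈t⌉₊ := Nat.ceil_pos.mpr htpos
  have hMr : (0 : ℝ) < (⌈t⌉₊ : ℝ) := by exact_mod_cast hM
  have htM : t ≤ (⌈t⌉₊ : ℝ) := Nat.le_ceil t
  obtain ⟨a, ha⟩ := exists_grid_near m ⌈t⌉₊ hM u hu
  have hd : dist (φ j u) (φ j (grid m ⌈t⌉₊ a)) ≤ (Λ : ℝ) * (1 / (⌈t⌉₊ : ℝ)) :=
    ((hLip j).dist_le_mul u hu _ (grid_mem m ⌈t⌉₊ a)).trans
      (mul_le_mul_of_nonneg_left ha Λ.coe_nonneg)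
  refine Set.mem_iUnion.mpr ⟨j, Set.mem_iUnion.mpr ⟨a, ?_⟩⟩
  intro i
  have h1 : |(z i : ℝ) - t * φ j u i| ≤ 1 := by
    have hl := hxc.1 i
    have hr := hxc.2 i
    simp only [toR, Pi.smul_apply, smul_eq_mul, Pi.add_apply, Pi.one_apply] at hl hr
    rw [abs_le]; constructor <;> linarith
  have h2 : |φ j u i - φ j (grid m ⌈t⌉₊ a) i| ≤ (Λ : ℝ) * (1 / (⌈t⌉₊ : ℝ)) := by
    have := dist_le_pi_dist (φ j u) (φ j (grid m ⌈t⌉₊ a)) i
    rw [Real.dist_eq] at this
    exact this.trans hd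
  have h3 : t * ((Λ : ℝ) * (1 / (⌈t⌉₊ : ℝ))) ≤ Λ := by
    have : t * ((Λ : ℝ) * (1 / (⌈t⌉₊ : ℝ))) = (Λ : ℝ) * (t / (⌈t⌉₊ : ℝ)) := by ring
    rw [this]
    have h4 : t / (⌈t⌉₊ : ℝ) ≤ 1 := (div_le_one hMr).mpr htM
    calc (Λ : ℝ) * (t / (⌈t⌉₊ : ℝ)) ≤ (Λ : ℝ) * 1 := mul_le_mul_of_nonneg_left h4 Λ.coe_nonneg
      _ = Λ := mul_one _
  have h5 : |t * φ j u i - t * φ j (grid m ⌈t⌉₊ a) i| ≤ Λ := by
    rw [← mul_sub, abs_mul, abs_of_pos htpos]
    exact (mul_le_mul_of_nonneg_left h2 htpos.le).trans h3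
  simp only [Pi.smul_apply, smul_eq_mul]
  calc |(z i : ℝ) - t * φ j (grid m ⌈t⌉₊ a) i|
      = |((z i : ℝ) - t * φ j u i) + (t * φ j u i - t * φ j (grid m ⌈t⌉₊ a) i)| := by ring_nf
    _ ≤ |(z i : ℝ) - t * φ j u i| + |t * φ j u i - t * φ j (grid m ⌈t⌉₊ a) i| := abs_add_le _ _
    _ ≤ 1 + Λ := add_le_add h1 h5
    _ = (Λ : ℝ) + 1 := add_comm _ _

lemma badSet_ncard_le {m J : ℕ} (D : Set (ι → ℝ)) (φ : Fin J → (Fin m → ℝ) → (ι → ℝ))
    (Λ : NNReal) (hLip : ∀ j, LipschitzOnWith Λ (φ j) (Set.Icc 0 1))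
    (hcov : frontier D ⊆ ⋃ j, φ j '' Set.Icc 0 1) (t : ℝ) (ht : 1 ≤ t) :
    (badSet (t • D)).Finite ∧
    ((badSet (t • D)).ncard : ℝ) ≤
      (J * 3 ^ m * ((⌊2 * ((Λ : ℝ) + 1)⌋₊ + 1 : ℕ) : ℝ) ^ Fintype.card ι) * t ^ m := by
  have hsub := badSet_subset D φ Λ hLip hcov t ht
  set K : ℕ := (⌊2 * ((Λ : ℝ) + 1)⌋₊ + 1) ^ Fintype.card ι with hK
  set U : Set (ι → ℤ) := ⋃ j : Fin J, ⋃ a : Fin m → Fin (⌈t⌉₊ + 1),
      zBall (t • φ j (grid m ⌈t⌉₊ a)) ((Λ : ℝ) + 1) with hU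
  have hUfin : U.Finite :=
    Set.finite_iUnion (fun j => Set.finite_iUnion (fun a => (zBall_finite_ncard _ _).1))
  refine ⟨hUfin.subset hsub, ?_⟩
  have h1 : (badSet (t • D)).ncard ≤ U.ncard := Set.ncard_le_ncard hsub hUfin
  have h2 : U.ncard ≤ ∑ _j : Fin J, ∑ _a : Fin m → Fin (⌈t⌉₊ + 1), K := by
    refine (Set.ncard_iUnion_le_of_fintype _).trans (Finset.sum_le_sum (fun j _ => ?_))
    refine (Set.ncard_iUnion_le_of_fintype _).trans (Finset.sum_le_sum (fun a _ => ?_))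
    exact (zBall_finite_ncard _ _).2
  have h3 : (∑ _j : Fin J, ∑ _a : Fin m → Fin (⌈t⌉₊ + 1), K) = J * ((⌈t⌉₊ + 1) ^ m * K) := by
    simp
  have h4 : ((badSet (t • D)).ncard : ℝ) ≤ (J : ℝ) * (((⌈t⌉₊ : ℝ) + 1) ^ m * (K : ℝ)) := by
    have := h1.trans (h2.trans_eq h3)
    exact_mod_cast this
  have h5 : ((⌈t⌉₊ : ℝ) + 1) ^ m ≤ (3 * t) ^ m := by
    refine pow_le_pow_left₀ (by positivity) ?_ m
    have := Nat.ceil_lt_add_one (by linarith : (0 : ℝ) ≤ t)
    linarith
  calc ((badSet (t • D)).ncard : ℝ) ≤ (J : ℝ) * (((⌈t⌉₊ : ℝ) + 1) ^ m * (K : ℝ)) := h4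
    _ ≤ (J : ℝ) * ((3 * t) ^ m * (K : ℝ)) := by gcongr
    _ = (J * 3 ^ m * ((⌊2 * ((Λ : ℝ) + 1)⌋₊ + 1 : ℕ) : ℝ) ^ Fintype.card ι) * t ^ m := by
        rw [hK, mul_pow]; push_cast; ring

omit [Fintype ι] in
lemma zPts_mul_smul (k : ℕ) (hk : 1 ≤ k) (t : ℝ) (D : Set (ι → ℝ)) :
    zPts (((k : ℝ) * t) • D) = zPtsDiv k (t • D) := by
  have hk0 : (k : ℝ) ≠ 0 := by
    have : (0 : ℝ) < k := by exact_mod_cast hk
    exact this.ne'
  ext z
  simp only [zPts, zPtsDiv, Set.mem_ofPred_eq]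
  rw [mul_smul, Set.mem_smul_set_iff_inv_smul_mem₀ hk0]
  have : (k : ℝ)⁻¹ • toR z = fun i => (z i : ℝ) / k := by
    funext i
    simp [toR, div_eq_inv_mul]
  rw [this]

/-- **P1 in coordinates.** -/
theorem coord_count (D : Set (ι → ℝ)) (m : ℕ) (hD : Bornology.IsBounded D)
    (hm : m + 1 = Fintype.card ι) (hL : LipCover m (frontier D)) :
    ∃ C : ℝ, ∀ t : ℝ, 1 ≤ t → ∀ k : ℕ, 1 ≤ k →
      |((zPts (((k : ℝ) * t) • D)).ncard : ℝ) - (k : ℝ) ^ (m + 1) * (zPts (t • D)).ncard| ≤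
        C * (k : ℝ) ^ (m + 1) * t ^ m := by
  obtain ⟨J, φ, Λ, hLip, hcov⟩ := hL
  refine ⟨J * 3 ^ m * ((⌊2 * ((Λ : ℝ) + 1)⌋₊ + 1 : ℕ) : ℝ) ^ Fintype.card ι, ?_⟩
  intro t ht k hk
  have : NeZero k := ⟨by omega⟩
  obtain ⟨hbf, hbc⟩ := badSet_ncard_le D φ Λ hLip hcov t ht
  have hfin : (zPts (t • D)).Finite := zPts_finite_of_isBounded (hD.smul₀ t)
  obtain ⟨-, hmain⟩ := abs_ncard_sub_le k (t • D) hfin hbf
  rw [zPts_mul_smul k hk, hm]
  refine hmain.trans ?_
  have hkn : (0 : ℝ) ≤ (k : ℝ) ^ Fintype.card ι := by positivity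
  calc (k : ℝ) ^ Fintype.card ι * (badSet (t • D)).ncard
      ≤ (k : ℝ) ^ Fintype.card ι *
        ((J * 3 ^ m * ((⌊2 * ((Λ : ℝ) + 1)⌋₊ + 1 : ℕ) : ℝ) ^ Fintype.card ι) * t ^ m) :=
        mul_le_mul_of_nonneg_left hbc hkn
    _ = _ := by ring


/-! ### transport to a general normed space with a basis -/

section transport

variable {E : Type} [NormedAddCommGroup E] [NormedSpace ℝ E] [FiniteDimensional ℝ E]

lemma latN_eq (b : Module.Basis ι ℝ E) (D : Set E) (s : ℝ) :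
    latN b D s = (zPts (s • (b.equivFunL '' D))).ncard := by
  have himg : b.equivFunL '' (s • D) = s • (b.equivFunL '' D) := image_smul_set _ _ _
  have hinj : Function.Injective (fun z : ι → ℤ => b.equivFunL.symm (toR z)) :=
    b.equivFunL.symm.injective.comp toR_injective
  have hrepr : ∀ (x : E) (i : ι), b.repr x i = b.equivFunL x i := fun x i => rfl
  have hset : {x : E | x ∈ Submodule.span ℤ (Set.range b) ∧ x ∈ s • D} =
      (fun z : ι → ℤ => b.equivFunL.symm (toR z)) '' zPts (s • (b.equivFunL '' D)) := by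
    ext x
    constructor
    · rintro ⟨hx1, hx2⟩
      rw [b.mem_span_iff_repr_mem ℤ] at hx1
      choose z hz using hx1
      have h1 : toR z = b.equivFunL x := by
        funext i
        rw [← hrepr]
        simpa [toR] using hz i
      refine ⟨z, ?_, ?_⟩
      · show toR z ∈ s • (b.equivFunL '' D)
        rw [h1, ← himg]
        exact Set.mem_image_of_mem _ hx2
      · show b.equivFunL.symm (toR z) = x
        rw [h1, ContinuousLinearEquiv.symm_apply_apply]
    · rintro ⟨z, hz, rfl⟩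
      have hz' : toR z ∈ b.equivFunL '' (s • D) := by rw [himg]; exact hz
      obtain ⟨y, hy, hyz⟩ := hz'
      have hy' : b.equivFunL.symm (toR z) = y := by
        rw [← hyz, ContinuousLinearEquiv.symm_apply_apply]
      constructor
      · rw [b.mem_span_iff_repr_mem ℤ]
        intro i
        refine ⟨z i, ?_⟩
        show _ = b.repr (b.equivFunL.symm (toR z)) i
        rw [hrepr, ContinuousLinearEquiv.apply_symm_apply]
        simp [toR]
      · show b.equivFunL.symm (toR z) ∈ s • D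
        rw [hy']; exact hy
  unfold latN
  rw [← Set.ncard_image_of_injective _ hinj, ← hset]
  exact Nat.card_coe_set_eq _

lemma lipCover_image (b : Module.Basis ι ℝ E) {m : ℕ} {S : Set E} (h : LipCover m S) :
    LipCover m (b.equivFunL '' S) := by
  obtain ⟨J, φ, Λ, hLip, hcov⟩ := h
  refine ⟨J, fun j => b.equivFunL ∘ φ j, ‖(b.equivFunL : E →L[ℝ] (ι → ℝ))‖₊ * Λ, ?_, ?_⟩
  · intro j
    exact b.equivFunL.lipschitz.comp_lipschitzOnWith (hLip j)
  · rintro _ ⟨x, hx, rfl⟩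
    obtain ⟨j, hj⟩ := Set.mem_iUnion.mp (hcov hx)
    obtain ⟨u, hu, rfl⟩ := hj
    exact Set.mem_iUnion.mpr ⟨j, ⟨u, hu, rfl⟩⟩

end transport

end Fermat.Agent.S14An.LatticeCount

namespace Fermat.Agent.S14An

open LatticeCount in
/-- **(P1)** lattice points in dilates of a bounded set with Lipschitz boundary. -/
theorem latticeCount : LatticeCountStatement := by
  intro ι E _ _ _ _ b D m hD hm hL
  have hD' : Bornology.IsBounded (b.equivFunL '' D) :=
    b.equivFunL.lipschitz.isBounded_image hD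
  have hL' : LipCover m (frontier (b.equivFunL '' D)) := by
    have := b.equivFunL.toHomeomorph.image_frontier D
    have h2 : frontier (b.equivFunL '' D) = b.equivFunL '' frontier D := this.symm
    rw [h2]
    exact lipCover_image b hL
  obtain ⟨C, hC⟩ := coord_count (b.equivFunL '' D) m hD' hm hL'
  refine ⟨C, fun t ht k hk => ?_⟩
  rw [latN_eq, latN_eq]
  exact hC t ht k hk

end Fermat.Agent.S14An
end MergeWrap_S14_Analytic_LatticeCount

section MergeWrap_S14_Analytic_NormLeOneFrontier -- from S14/Analytic/NormLeOneFrontier.lean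

/-!
# S14, analytic second inequality, work package P2: the frontier of `normLeOne K`

`theorem normLeOneFrontier : NormLeOneFrontierStatement`:
the frontier of `normLeOne K` is covered by finitely many Lipschitz images of `[0,1]^(d-1)`,
`d = [K : ℚ]`.

Proof.  By Mathlib, `closure (normLeOne K) ⊆ normAtAllPlaces ⁻¹' compactSet K` and
`normAtAllPlaces ⁻¹' (expMapBasis '' interior (paramSet K)) ⊆ interior (normLeOne K)`.
The compact set is the image of the unit cube `[0,1]^(InfinitePlace K)` under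
`nlfCone u = u w₀ • expMapBasis (u with the coordinate at w₀ replaced by 0)`, and the open cube
is mapped into `expMapBasis '' interior (paramSet K)`; hence a point of the frontier has absolute
values `nlfCone u` for some `u` on the boundary of the cube.  Adding a sign at every real place
and an angle at every complex place gives `2 (r₁ + r₂) 2 ^ r₁` charts, each one a `C¹` map defined
on the whole of `ℝ ^ (d - 1)`, hence Lipschitz on the unit cube.
-/

set_option autoImplicit false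

open NumberField NumberField.InfinitePlace NumberField.mixedEmbedding
  NumberField.mixedEmbedding.fundamentalCone NumberField.Units dirichletUnitTheorem

open scoped Classical Pointwise

namespace Fermat.Agent.S14An

/-! ## A general criterion -/

/-- Finitely many `C¹` charts defined on the whole of `ℝ^m` give a Lipschitz cover. -/
theorem nlf_lipCover_of_contDiff {E : Type*} [NormedAddCommGroup E] [NormedSpace ℝ E]
    (m : ℕ) (S : Set E) {𝒥 : Type} [Fintype 𝒥] (φ : 𝒥 → (Fin m → ℝ) → E)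
    (hφ : ∀ j, ContDiff ℝ 1 (φ j)) (hS : S ⊆ ⋃ j, φ j '' Set.Icc 0 1) :
    LipCover m S := by
  have hL : ∀ j, ∃ C : NNReal, LipschitzOnWith C (φ j) (Set.Icc 0 1) := fun j =>
    (hφ j).contDiffOn.exists_lipschitzOnWith one_ne_zero (convex_Icc _ _) isCompact_Icc
  choose C hC using hL
  let e := Fintype.equivFin 𝒥
  refine ⟨Fintype.card 𝒥, fun k => φ (e.symm k), Finset.univ.sup C, ?_, ?_⟩
  · intro k
    exact (hC (e.symm k)).weaken (Finset.le_sup (Finset.mem_univ _))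
  · intro x hx
    obtain ⟨j, hj⟩ := Set.mem_iUnion.mp (hS hx)
    refine Set.mem_iUnion.mpr ⟨e j, ?_⟩
    simpa using hj

variable (K : Type) [Field K] [NumberField K]

/-! ## The radial parametrisation of `compactSet K` -/

/-- Radial parametrisation of `compactSet K` by the unit cube: the coordinate at `w₀` is the
radial factor, the other coordinates are the exponents of the fundamental units. -/
noncomputable def nlfCone (u : realSpace K) : realSpace K :=
  u w₀ • expMapBasis (fun i => if i = w₀ then 0 else u i)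

theorem nlf_exists_of_mem_compactSet {x : realSpace K} (hx : x ∈ compactSet K) :
    ∃ u ∈ Set.Icc (0 : realSpace K) 1, nlfCone K u = x := by
  obtain ⟨c, hc, ⟨_, ⟨y, hy, rfl⟩, rfl⟩⟩ := hx
  refine ⟨fun w => if w = w₀ then c else y w, ?_, ?_⟩
  · rw [← Set.pi_univ_Icc, Set.mem_univ_pi]
    intro w
    have := hy w (Set.mem_univ _)
    by_cases h : w = w₀
    · simpa [h] using hc
    · simpa [h] using this
  · have h0 : y w₀ = 0 := by simpa using hy w₀ (Set.mem_univ _)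
    have : (fun i => if i = w₀ then (0 : ℝ) else (if i = w₀ then c else y i)) = y := by
      funext i
      by_cases h : i = w₀
      · simp [h, h0]
      · simp [h]
    simp only [nlfCone, if_true, this]

theorem nlfCone_mem_image_interior {u : realSpace K}
    (hu : ∀ w, 0 < u w ∧ u w < 1) :
    nlfCone K u ∈ expMapBasis '' interior (paramSet K) := by
  refine ⟨fun w => if w = w₀ then Real.log (u w₀) else u w, ?_, ?_⟩
  · rw [interior_paramSet, Set.mem_univ_pi]
    intro w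
    by_cases h : w = w₀
    · simp only [h, if_true, Set.mem_Iio]
      exact Real.log_neg (hu w₀).1 (hu w₀).2
    · simp only [h, if_false, Set.mem_Ioo]
      exact hu w
  · rw [expMapBasis_apply'', if_pos rfl, Real.exp_log (hu w₀).1, nlfCone]
    congr 2
    funext i
    by_cases h : i = w₀ <;> simp [h]

/-- A point of the frontier of `normLeOne K` has absolute values `nlfCone u` with `u` on the
boundary of the unit cube. -/
theorem nlf_frontier_subset {x : mixedSpace K} (hx : x ∈ frontier (normLeOne K)) :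
    ∃ u ∈ Set.Icc (0 : realSpace K) 1, (∃ w, u w = 0 ∨ u w = 1) ∧
      normAtAllPlaces x = nlfCone K u := by
  have h1 : x ∈ closure (normLeOne K) := hx.1
  have h2 : x ∉ interior (normLeOne K) := hx.2
  obtain ⟨u, hu, hux⟩ := nlf_exists_of_mem_compactSet K (closure_normLeOne_subset K h1)
  refine ⟨u, hu, ?_, hux.symm⟩
  by_contra hcon
  push Not at hcon
  apply h2
  apply subset_interior_normLeOne K
  rw [Set.mem_preimage, ← hux]
  apply nlfCone_mem_image_interior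
  intro w
  have hw := hu
  rw [← Set.pi_univ_Icc, Set.mem_univ_pi] at hw
  have := hw w
  simp only [Pi.zero_apply, Pi.one_apply, Set.mem_Icc] at this
  exact ⟨lt_of_le_of_ne this.1 (Ne.symm (hcon w).1), lt_of_le_of_ne this.2 (hcon w).2⟩

/-! ## Smoothness -/

theorem nlf_contDiff_expMap : ContDiff ℝ 1 (fun x : realSpace K => (expMap x : realSpace K)) := by
  rw [contDiff_pi]
  intro w
  have : (fun x : realSpace K => (expMap x : realSpace K) w)
      = fun x : realSpace K => Real.exp ((↑w.mult)⁻¹ * x w) := by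
    funext x; exact expMap_apply x w
  rw [this]
  exact Real.contDiff_exp.comp (contDiff_const.mul (contDiff_apply ℝ ℝ w))

theorem nlf_contDiff_expMapBasis :
    ContDiff ℝ 1 (fun x : realSpace K => (expMapBasis x : realSpace K)) := by
  have : (fun x : realSpace K => (expMapBasis x : realSpace K))
      = (fun x : realSpace K => (expMap x : realSpace K)) ∘
          (fun x => (completeBasis K).equivFunL.symm x) := by
    funext x; rfl
  rw [this]
  exact (nlf_contDiff_expMap K).comp (ContinuousLinearEquiv.contDiff _)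

theorem nlf_contDiff_cone : ContDiff ℝ 1 (nlfCone K) := by
  unfold nlfCone
  apply ContDiff.smul (contDiff_apply ℝ ℝ w₀)
  apply (nlf_contDiff_expMapBasis K).comp
  rw [contDiff_pi]
  intro i
  by_cases h : i = w₀
  · simp only [h, if_true]; exact contDiff_const
  · simp only [h, if_false]; exact contDiff_apply ℝ ℝ i

/-! ## The charts -/

/-- The index type of the parameters: one radial/unit-exponent coordinate for each infinite place
and one angle for each complex place. -/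
abbrev NlfIdx : Type := InfinitePlace K ⊕ {w : InfinitePlace K // IsComplex w}

/-- The full chart: signs at the real places, angles at the complex places. -/
noncomputable def nlfChart (ε : {w : InfinitePlace K // IsReal w} → Bool)
    (p : NlfIdx K → ℝ) : mixedSpace K :=
  (fun v => (if ε v then (1 : ℝ) else -1) * nlfCone K (fun i => p (Sum.inl i)) v.1,
   fun v => ((nlfCone K (fun i => p (Sum.inl i)) v.1 : ℝ) : ℂ) *
      Complex.exp (((2 * Real.pi * p (Sum.inr v) - Real.pi : ℝ) : ℂ) * Complex.I))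

theorem nlf_contDiff_chart (ε : {w : InfinitePlace K // IsReal w} → Bool) :
    ContDiff ℝ 1 (nlfChart K ε) := by
  have hc : ContDiff ℝ 1 (fun p : NlfIdx K → ℝ => nlfCone K (fun i => p (Sum.inl i))) := by
    apply (nlf_contDiff_cone K).comp
    rw [contDiff_pi]
    intro i
    exact contDiff_apply ℝ ℝ (Sum.inl i)
  have hcw : ∀ w : InfinitePlace K,
      ContDiff ℝ 1 (fun p : NlfIdx K → ℝ => nlfCone K (fun i => p (Sum.inl i)) w) := by
    intro w
    exact (contDiff_apply ℝ ℝ w).comp hc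
  unfold nlfChart
  apply ContDiff.prodMk
  · rw [contDiff_pi]
    intro v
    exact contDiff_const.mul (hcw v.1)
  · rw [contDiff_pi]
    intro v
    apply ContDiff.mul
    · exact Complex.ofRealCLM.contDiff.comp (hcw v.1)
    · apply Complex.contDiff_exp.comp
      apply ContDiff.mul _ contDiff_const
      apply Complex.ofRealCLM.contDiff.comp
      exact (contDiff_const.mul (contDiff_apply ℝ ℝ (Sum.inr v))).sub contDiff_const

/-- Every `x` whose vector of absolute values is `nlfCone u` is in the image of a chart. -/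
theorem nlf_exists_chart {x : mixedSpace K} {u : realSpace K}
    (hx : normAtAllPlaces x = nlfCone K u) :
    ∃ (ε : {w : InfinitePlace K // IsReal w} → Bool)
      (θ : {w : InfinitePlace K // IsComplex w} → ℝ),
      (∀ v, 0 ≤ θ v ∧ θ v ≤ 1) ∧ nlfChart K ε (Sum.elim u θ) = x := by
  refine ⟨fun v => decide (0 ≤ x.1 v), fun v => (Complex.arg (x.2 v) + Real.pi) / (2 * Real.pi),
    ?_, ?_⟩
  · intro v
    have h1 := Complex.neg_pi_lt_arg (x.2 v)
    have h2 := Complex.arg_le_pi (x.2 v)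
    have hpi := Real.pi_pos
    constructor
    · apply div_nonneg <;> linarith
    · rw [div_le_one (by linarith)]; linarith
  · have hcone : ∀ w, nlfCone K (fun i => (Sum.elim u
        (fun v => (Complex.arg (x.2 v) + Real.pi) / (2 * Real.pi)) : NlfIdx K → ℝ) (Sum.inl i)) w
        = normAtPlace w x := by
      intro w
      simp only [Sum.elim_inl]
      rw [← hx, normAtAllPlaces_apply]
    refine Prod.ext ?_ ?_
    · funext v
      simp only [nlfChart]
      rw [hcone, normAtPlace_apply_of_isReal v.2]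
      simp only [decide_eq_true_eq, Real.norm_eq_abs]
      by_cases h : 0 ≤ x.1 v
      · simp only [h, if_true, one_mul]; exact abs_of_nonneg h
      · simp only [h, if_false]
        rw [abs_of_neg (not_le.mp h)]; ring
    · funext v
      simp only [nlfChart]
      rw [hcone, normAtPlace_apply_of_isComplex v.2]
      simp only [Sum.elim_inr]
      have hpi : (2 * Real.pi) ≠ 0 := by positivity
      have : 2 * Real.pi * ((Complex.arg (x.2 v) + Real.pi) / (2 * Real.pi)) - Real.pi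
          = Complex.arg (x.2 v) := by
        field_simp; ring
      rw [this]
      exact Complex.norm_mul_exp_arg_mul_I _

/-! ## The faces of the cube -/

theorem nlf_card_idx : Nat.card (NlfIdx K) = Module.finrank ℚ K := by
  rw [Nat.card_sum, Nat.card_eq_fintype_card, Nat.card_eq_fintype_card,
    card_eq_nrRealPlaces_add_nrComplexPlaces, ← card_add_two_mul_card_eq_rank]
  simp only [nrComplexPlaces]
  ring

theorem nlf_card_face (w : InfinitePlace K) (m : ℕ) (hm : m + 1 = Module.finrank ℚ K) :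
    Nat.card {i : NlfIdx K // i ≠ Sum.inl w} = m := by
  have h1 : Nat.card {i : NlfIdx K // i ≠ Sum.inl w} = Nat.card (NlfIdx K) - 1 := by
    rw [Nat.card_eq_fintype_card, Nat.card_eq_fintype_card]
    rw [Fintype.card_subtype_compl, Fintype.card_subtype_eq]
  rw [h1, nlf_card_idx, ← hm]
  rfl

/-- Inserting the constant `b` at the coordinate `w`. -/
noncomputable def nlfIns {m : ℕ} (w : InfinitePlace K)
    (e : {i : NlfIdx K // i ≠ Sum.inl w} ≃ Fin m) (b : ℝ) (q : Fin m → ℝ) : NlfIdx K → ℝ :=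
  fun i => if h : i = Sum.inl w then b else q (e ⟨i, h⟩)

theorem nlf_contDiff_ins {m : ℕ} (w : InfinitePlace K)
    (e : {i : NlfIdx K // i ≠ Sum.inl w} ≃ Fin m) (b : ℝ) :
    ContDiff ℝ 1 (nlfIns K w e b) := by
  rw [contDiff_pi]
  intro i
  unfold nlfIns
  by_cases h : i = Sum.inl w
  · simp only [h, dif_pos]; exact contDiff_const
  · simp only [h, dif_neg, not_false_eq_true]; exact contDiff_apply ℝ ℝ _

omit [NumberField K] in
theorem nlf_ins_surj {m : ℕ} (w : InfinitePlace K)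
    (e : {i : NlfIdx K // i ≠ Sum.inl w} ≃ Fin m) (b : ℝ) (p : NlfIdx K → ℝ)
    (hp : ∀ i, 0 ≤ p i ∧ p i ≤ 1) (hb : p (Sum.inl w) = b) :
    ∃ q ∈ Set.Icc (0 : Fin m → ℝ) 1, nlfIns K w e b q = p := by
  refine ⟨fun k => p (e.symm k).1, ?_, ?_⟩
  · rw [← Set.pi_univ_Icc, Set.mem_univ_pi]
    intro k
    exact hp _
  · funext i
    unfold nlfIns
    by_cases h : i = Sum.inl w
    · simp only [h, dif_pos]; exact hb.symm
    · simp only [h, dif_neg, not_false_eq_true, Equiv.symm_apply_apply]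

/-! ## The theorem -/

/-- The frontier of `normLeOne K` is covered by finitely many Lipschitz images of the unit cube
of dimension `[K : ℚ] - 1`. -/
theorem nlf_lipCover_frontier (m : ℕ) (hm : m + 1 = Module.finrank ℚ K) :
    LipCover m (frontier (normLeOne K)) := by
  -- the equivalences between the faces and `Fin m`
  have he : ∀ w : InfinitePlace K, Nonempty ({i : NlfIdx K // i ≠ Sum.inl w} ≃ Fin m) :=
    fun w => ⟨Finite.equivFinOfCardEq (nlf_card_face K w m hm)⟩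
  choose e _ using fun w => (he w).elim (fun e => (⟨e, trivial⟩ : ∃ _e :
    {i : NlfIdx K // i ≠ Sum.inl w} ≃ Fin m, True))
  refine nlf_lipCover_of_contDiff m _
    (𝒥 := InfinitePlace K × Bool × ({w : InfinitePlace K // IsReal w} → Bool))
    (fun j q => nlfChart K j.2.2 (nlfIns K j.1 (e j.1) (if j.2.1 then 1 else 0) q)) ?_ ?_
  · intro j
    exact (nlf_contDiff_chart K j.2.2).comp (nlf_contDiff_ins K j.1 (e j.1) _)
  · intro x hx
    obtain ⟨u, hu, ⟨w, hw⟩, hxu⟩ := nlf_frontier_subset K hx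
    obtain ⟨ε, θ, hθ, hχ⟩ := nlf_exists_chart K hxu
    have hu' : ∀ i, 0 ≤ u i ∧ u i ≤ 1 := by
      rw [← Set.pi_univ_Icc, Set.mem_univ_pi] at hu
      intro i
      simpa using hu i
    have hp : ∀ i : NlfIdx K, 0 ≤ (Sum.elim u θ : NlfIdx K → ℝ) i ∧
        (Sum.elim u θ : NlfIdx K → ℝ) i ≤ 1 := by
      rintro (i | i)
      · exact hu' i
      · exact hθ i
    rcases hw with hw | hw
    · obtain ⟨q, hq, hqp⟩ := nlf_ins_surj K w (e w) 0 (Sum.elim u θ) hp (by simpa using hw)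
      refine Set.mem_iUnion.mpr ⟨(w, false, ε), q, hq, ?_⟩
      simp only [Bool.false_eq_true, if_false]
      rw [hqp, hχ]
    · obtain ⟨q, hq, hqp⟩ := nlf_ins_surj K w (e w) 1 (Sum.elim u θ) hp (by simpa using hw)
      refine Set.mem_iUnion.mpr ⟨(w, true, ε), q, hq, ?_⟩
      simp only [if_true]
      rw [hqp, hχ]

/-- **(P2)** of the analytic second inequality. -/
theorem normLeOneFrontier : NormLeOneFrontierStatement := by
  intro K _ _ m hm
  exact nlf_lipCover_frontier K m hm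

end Fermat.Agent.S14An
end MergeWrap_S14_Analytic_NormLeOneFrontier

section MergeWrap_S14_Analytic_ClassCountGlue -- from S14/Analytic/ClassCountGlue.lean

/-!
# S14 analytic second inequality, piece P3a: glue to Mathlib's `idealSet` / `normLeOne`

For a class `C` and an integral ideal `J` in the class `C⁻¹`:
`classCount K C x * torsionOrder K = latN (fractionalIdealLatticeBasis K J) (normLeOne K) t`
with `t ^ d = x * N J`, `d = [K : ℚ]`; plus the Mathlib limit in `classCount` language.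
-/

set_option autoImplicit false

open NumberField Filter Topology IsDedekindDomain
open scoped nonZeroDivisors Pointwise
open NumberField.mixedEmbedding NumberField.mixedEmbedding.fundamentalCone

namespace Fermat.Agent.S14An

noncomputable section

variable (K : Type) [Field K] [NumberField K]

/-- (G1) the index type of `fractionalIdealLatticeBasis` has `[K : ℚ]` elements. -/
theorem card_chooseBasisIndex_fractionalIdeal (I : (FractionalIdeal (𝓞 K)⁰ K)ˣ) :
    Fintype.card (Module.Free.ChooseBasisIndex ℤ I) =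
      Module.finrank ℚ K := by
  rw [← Module.finrank_eq_card_chooseBasisIndex, fractionalIdeal_rank,
    RingOfIntegers.rank]

/-- membership in a dilate of `normLeOne`. -/
theorem mem_smul_normLeOne_iff {t : ℝ} (ht : 0 < t) (x : mixedSpace K) :
    x ∈ t • normLeOne K ↔
      x ∈ fundamentalCone K ∧ mixedEmbedding.norm x ≤ t ^ Module.finrank ℚ K := by
  have ht' : t⁻¹ ≠ 0 := inv_ne_zero ht.ne'
  rw [Set.mem_smul_set_iff_inv_smul_mem₀ ht.ne', mem_normLeOne, smul_mem_iff_mem ht',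
    mixedEmbedding.norm_smul, abs_of_pos (inv_pos.mpr ht), inv_pow,
    inv_mul_le_iff₀ (pow_pos ht _), mul_one]

/-- the lattice points of `t • normLeOne` are the elements of `idealSet` of norm `≤ t ^ d`. -/
theorem latN_eq_card_idealSet (J : (Ideal (𝓞 K))⁰) {t : ℝ} (ht : 0 < t) :
    latN (fractionalIdealLatticeBasis K (FractionalIdeal.mk0 K J)) (normLeOne K) t =
      Nat.card {a : idealSet K J //
        mixedEmbedding.norm (a : mixedSpace K) ≤ t ^ Module.finrank ℚ K} := by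
  unfold latN
  refine Nat.card_congr ?_
  refine (Equiv.subtypeEquivRight fun x => ?_).trans
    (Equiv.subtypeSubtypeEquivSubtypeInter (fun x : mixedSpace K => x ∈ idealSet K J)
      (fun x => mixedEmbedding.norm x ≤ t ^ Module.finrank ℚ K)).symm
  rw [span_idealLatticeBasis, mem_smul_normLeOne_iff K ht, idealSet, Set.mem_inter_iff,
    SetLike.mem_coe]
  tauto

/-- (reproof of Mathlib's private lemma) ideals in the class `C` of norm `≤ s` correspond to
principal ideals divisible by `J` of norm `≤ s * N J`, when `J` is in the class `C⁻¹`. -/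
theorem classCount_eq_card_dvd (C : ClassGroup (𝓞 K)) (J : (Ideal (𝓞 K))⁰)
    (hJ : ClassGroup.mk0 J = C⁻¹) (s : ℝ) :
    classCount K C s =
      Nat.card {I : (Ideal (𝓞 K))⁰ // (J : Ideal (𝓞 K)) ∣ I ∧
        Submodule.IsPrincipal (I : Ideal (𝓞 K)) ∧
        (Ideal.absNorm (I : Ideal (𝓞 K)) : ℝ) ≤ s * Ideal.absNorm (J : Ideal (𝓞 K))} := by
  unfold classCount
  simp_rw [← nonZeroDivisors_dvd_iff_dvd_coe]
  refine Nat.card_congr ?_
  refine ((Equiv.dvd J).subtypeEquiv fun I ↦ ?_).trans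
    (Equiv.subtypeSubtypeEquivSubtypeInter (fun I : (Ideal (𝓞 K))⁰ ↦ J ∣ I) _)
  rw [← ClassGroup.mk0_eq_one_iff (SetLike.coe_mem _)]
  simp_rw [Equiv.dvd_apply, Submonoid.coe_mul, ← Submonoid.mul_def, _root_.map_mul, hJ,
    inv_mul_eq_one, Nat.cast_mul, mul_comm s, eq_comm, and_comm, and_congr_left_iff]
  exact fun _ ↦
    (mul_le_mul_iff_of_pos_left
      (Nat.cast_pos.mpr (Ideal.absNorm_pos_of_nonZeroDivisors J))).symm

/-- `classCount` times the number of roots of unity counts elements of `idealSet`. -/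
theorem classCount_mul_torsionOrder_eq_card_idealSet (C : ClassGroup (𝓞 K))
    (J : (Ideal (𝓞 K))⁰) (hJ : ClassGroup.mk0 J = C⁻¹) (s : ℝ) :
    classCount K C s * Units.torsionOrder K =
      Nat.card {a : idealSet K J //
        mixedEmbedding.norm (a : mixedSpace K) ≤ s * Ideal.absNorm (J : Ideal (𝓞 K))} := by
  rw [classCount_eq_card_dvd K C J hJ, card_isPrincipal_dvd_norm_le]

/-- (G2) `t`-form of the glue. -/
theorem latN_eq_classCount (C : ClassGroup (𝓞 K)) (J : (Ideal (𝓞 K))⁰)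
    (hJ : ClassGroup.mk0 J = C⁻¹) (t : ℝ) (ht : 0 < t) :
    latN (fractionalIdealLatticeBasis K (FractionalIdeal.mk0 K J)) (normLeOne K) t =
      classCount K C (t ^ Module.finrank ℚ K / (Ideal.absNorm (J : Ideal (𝓞 K)) : ℝ)) *
        Units.torsionOrder K := by
  have hN : ((Ideal.absNorm (J : Ideal (𝓞 K)) : ℕ) : ℝ) ≠ 0 :=
    Nat.cast_ne_zero.mpr (Ideal.absNorm_ne_zero_of_nonZeroDivisors J)
  rw [latN_eq_card_idealSet K J ht, classCount_mul_torsionOrder_eq_card_idealSet K C J hJ,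
    div_mul_cancel₀ _ hN]

/-- (G3) `x`-form of the glue. -/
theorem classCount_mul_torsionOrder (C : ClassGroup (𝓞 K)) (J : (Ideal (𝓞 K))⁰)
    (hJ : ClassGroup.mk0 J = C⁻¹) (x : ℝ) (hx : 0 < x) :
    classCount K C x * Units.torsionOrder K =
      latN (fractionalIdealLatticeBasis K (FractionalIdeal.mk0 K J)) (normLeOne K)
        ((x * (Ideal.absNorm (J : Ideal (𝓞 K)) : ℝ)) ^ (1 / (Module.finrank ℚ K : ℝ))) := by
  have hN : (0 : ℝ) < (Ideal.absNorm (J : Ideal (𝓞 K)) : ℕ) :=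
    Nat.cast_pos.mpr (Ideal.absNorm_pos_of_nonZeroDivisors J)
  have hd : (Module.finrank ℚ K : ℝ) ≠ 0 := Nat.cast_ne_zero.mpr Module.finrank_pos.ne'
  have hxN : 0 < x * (Ideal.absNorm (J : Ideal (𝓞 K)) : ℝ) := mul_pos hx hN
  rw [latN_eq_classCount K C J hJ _ (Real.rpow_pos_of_pos hxN _), ← Real.rpow_natCast,
    ← Real.rpow_mul hxN.le, one_div, inv_mul_cancel₀ hd, Real.rpow_one,
    mul_div_cancel_right₀ _ hN.ne']

/-- the constant of the ideal counting asymptotics (independent of the class). -/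
def kappa : ℝ :=
  2 ^ InfinitePlace.nrRealPlaces K * (2 * Real.pi) ^ InfinitePlace.nrComplexPlaces K *
    Units.regulator K / ((Units.torsionOrder K : ℝ) * √|(discr K : ℝ)|)

/-- (G4) Mathlib's limit, in `classCount` language. -/
theorem tendsto_classCount_div (C : ClassGroup (𝓞 K)) :
    Tendsto (fun s : ℝ => (classCount K C s : ℝ) / s) atTop (𝓝 (kappa K)) :=
  NumberField.Ideal.tendsto_norm_le_and_mk_eq_div_atTop K C

end

end Fermat.Agent.S14An
end MergeWrap_S14_Analytic_ClassCountGlue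

section MergeWrap_S14_Analytic_ClassCount -- from S14/Analytic/ClassCount.lean

/-!
# S14, H2 Route II, work package P3: ideals of bounded norm in a class, with error term

* `latN_sub_le_of_tendsto` (P3b, abstract): a counting function `N` with
  `|N (k t) - k ^ n N t| ≤ C k ^ n t ^ m` and `N t / t ^ n → λ` satisfies `|N t - λ t ^ n| ≤ C t ^ m`.
* `classCount_of : LatticeCountStatement → NormLeOneFrontierStatement → ClassCountStatement`.
-/

set_option autoImplicit false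

open NumberField Filter Topology IsDedekindDomain
open NumberField.mixedEmbedding NumberField.mixedEmbedding.fundamentalCone
open scoped nonZeroDivisors Pointwise

namespace Fermat.Agent.S14An

/-- **(P3b)** abstract passage to the limit `k → ∞`. -/
theorem latN_sub_le_of_tendsto {N : ℝ → ℕ} {n m : ℕ} {C lam : ℝ}
    (hN : ∀ t : ℝ, 1 ≤ t → ∀ k : ℕ, 1 ≤ k →
      |(N (k * t) : ℝ) - (k : ℝ) ^ n * N t| ≤ C * (k : ℝ) ^ n * t ^ m)
    (hlim : Tendsto (fun t : ℝ => (N t : ℝ) / t ^ n) atTop (𝓝 lam)) :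
    ∀ t : ℝ, 1 ≤ t → |lam * t ^ n - (N t : ℝ)| ≤ C * t ^ m := by
  intro t ht
  have ht0 : 0 < t := lt_of_lt_of_le one_pos ht
  -- the sequence `k ↦ N (k t) / k ^ n` tends to `lam * t ^ n`
  have hkt : Tendsto (fun k : ℕ => (k : ℝ) * t) atTop atTop :=
    Tendsto.atTop_mul_const ht0 tendsto_natCast_atTop_atTop
  have h1 : Tendsto (fun k : ℕ => (N ((k : ℝ) * t) : ℝ) / ((k : ℝ) * t) ^ n * t ^ n) atTop
      (𝓝 (lam * t ^ n)) := (hlim.comp hkt).mul_const _
  have h2 : Tendsto (fun k : ℕ => |(N ((k : ℝ) * t) : ℝ) / ((k : ℝ) * t) ^ n * t ^ n - (N t : ℝ)|)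
      atTop (𝓝 |lam * t ^ n - (N t : ℝ)|) := (h1.sub_const _).abs
  refine le_of_tendsto h2 ?_
  filter_upwards [eventually_ge_atTop 1] with k hk
  have hk0 : (0 : ℝ) < (k : ℝ) := by exact_mod_cast hk
  have hkn : (0 : ℝ) < (k : ℝ) ^ n := pow_pos hk0 n
  have htn : (0 : ℝ) < t ^ n := pow_pos ht0 n
  have key := hN t ht k hk
  have e : (N ((k : ℝ) * t) : ℝ) / ((k : ℝ) * t) ^ n * t ^ n - (N t : ℝ) =
      ((N ((k : ℝ) * t) : ℝ) - (k : ℝ) ^ n * N t) / (k : ℝ) ^ n := by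
    rw [mul_pow]
    field_simp
  rw [e, abs_div, abs_of_pos hkn, div_le_iff₀ hkn]
  calc |(N ((k : ℝ) * t) : ℝ) - (k : ℝ) ^ n * N t| ≤ C * (k : ℝ) ^ n * t ^ m := key
    _ = C * t ^ m * (k : ℝ) ^ n := by ring

variable (K : Type) [Field K] [NumberField K]

open scoped Classical in
/-- the bound for one class. -/
theorem classCount_sub_le_of (h1 : LatticeCountStatement) (h2 : NormLeOneFrontierStatement)
    (C : ClassGroup (𝓞 K)) :
    ∃ B : ℝ, 0 ≤ B ∧ ∀ x : ℝ, 1 ≤ x →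
      |(classCount K C x : ℝ) - kappa K * x| ≤ B * x ^ (1 - 1 / (Module.finrank ℚ K : ℝ)) := by
  obtain ⟨J, hJ⟩ := ClassGroup.mk0_surjective C⁻¹
  set d := Module.finrank ℚ K with hd
  have hd0 : 0 < d := Module.finrank_pos
  obtain ⟨m, hm⟩ : ∃ m, m + 1 = d := ⟨d - 1, by omega⟩
  set b := fractionalIdealLatticeBasis K (FractionalIdeal.mk0 K J) with hb
  have hcard : m + 1 = Fintype.card (Module.Free.ChooseBasisIndex ℤ (FractionalIdeal.mk0 K J)) := by
    rw [card_chooseBasisIndex_fractionalIdeal, hm]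
  obtain ⟨C₁, hC₁⟩ := h1 _ (mixedSpace K) b (normLeOne K) m (isBounded_normLeOne K) hcard
    (h2 K m hm)
  rw [hm] at hC₁
  have hNJ : (0 : ℝ) < (Ideal.absNorm (J : Ideal (𝓞 K)) : ℕ) :=
    Nat.cast_pos.mpr (Ideal.absNorm_pos_of_nonZeroDivisors J)
  have hNJ1 : (1 : ℝ) ≤ (Ideal.absNorm (J : Ideal (𝓞 K)) : ℕ) := by
    exact_mod_cast Nat.one_le_iff_ne_zero.mpr (Ideal.absNorm_ne_zero_of_nonZeroDivisors J)
  have hw : (0 : ℝ) < (Units.torsionOrder K : ℝ) :=
    Nat.cast_pos.mpr (Nat.pos_of_ne_zero (Units.torsionOrder_ne_zero K))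
  set NJ : ℝ := ((Ideal.absNorm (J : Ideal (𝓞 K)) : ℕ) : ℝ) with hNJdef
  set w : ℝ := (Units.torsionOrder K : ℝ) with hwdef
  -- the limit of `latN t / t ^ d`
  have hlim : Tendsto (fun t : ℝ => (latN b (normLeOne K) t : ℝ) / t ^ d) atTop
      (𝓝 (kappa K * w / NJ)) := by
    have hs : Tendsto (fun t : ℝ => t ^ d / NJ) atTop atTop :=
      Tendsto.atTop_div_const hNJ (tendsto_pow_atTop hd0.ne')
    have h3 : Tendsto (fun t : ℝ => (classCount K C (t ^ d / NJ) : ℝ) / (t ^ d / NJ) * (w / NJ))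
        atTop (𝓝 (kappa K * (w / NJ))) := ((tendsto_classCount_div K C).comp hs).mul_const _
    rw [mul_div_assoc]
    refine h3.congr' ?_
    filter_upwards [eventually_gt_atTop 0] with t ht
    have htd : (0 : ℝ) < t ^ d := pow_pos ht d
    have e := latN_eq_classCount K C J hJ t ht
    rw [← hd] at e
    rw [e, Nat.cast_mul]
    change (classCount K C (t ^ d / NJ) : ℝ) / (t ^ d / NJ) * (w / NJ) =
      (classCount K C (t ^ d / NJ) : ℝ) * w / t ^ d
    field_simp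
  have hmain := latN_sub_le_of_tendsto (N := latN b (normLeOne K)) (n := d) (m := m)
    (C := C₁) (lam := kappa K * w / NJ) hC₁ hlim
  have hdR : (0 : ℝ) < (d : ℝ) := Nat.cast_pos.mpr hd0
  refine ⟨|C₁| * NJ ^ (1 - 1 / (d : ℝ)) / w, by positivity, fun x hx => ?_⟩
  have hx0 : 0 < x := lt_of_lt_of_le one_pos hx
  have hxN : 0 < x * NJ := mul_pos hx0 hNJ
  have hxN1 : 1 ≤ x * NJ := by nlinarith
  set t : ℝ := (x * NJ) ^ (1 / (d : ℝ)) with ht
  have ht1 : 1 ≤ t := Real.one_le_rpow hxN1 (by positivity)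
  have htd : t ^ d = x * NJ := by
    rw [ht, ← Real.rpow_natCast, ← Real.rpow_mul hxN.le, one_div, inv_mul_cancel₀ hdR.ne',
      Real.rpow_one]
  have htm : t ^ m = (x * NJ) ^ (1 - 1 / (d : ℝ)) := by
    rw [ht, ← Real.rpow_natCast, ← Real.rpow_mul hxN.le]
    congr 1
    have : (m : ℝ) = (d : ℝ) - 1 := by
      rw [← hm]; push_cast; ring
    rw [this]
    field_simp
  have hG3 : (latN b (normLeOne K) t : ℝ) = (classCount K C x : ℝ) * w := by
    rw [ht, ← classCount_mul_torsionOrder K C J hJ x hx0, Nat.cast_mul]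
  have h4 := hmain t ht1
  rw [htd, htm, hG3] at h4
  have e1 : kappa K * w / NJ * (x * NJ) - (classCount K C x : ℝ) * w =
      -(((classCount K C x : ℝ) - kappa K * x) * w) := by
    field_simp
    ring
  rw [e1, abs_neg, abs_mul, abs_of_pos hw] at h4
  rw [Real.mul_rpow hx0.le hNJ.le] at h4
  have h5 : |(classCount K C x : ℝ) - kappa K * x| * w ≤
      |C₁| * (x ^ (1 - 1 / (d : ℝ)) * NJ ^ (1 - 1 / (d : ℝ))) :=
    h4.trans (mul_le_mul_of_nonneg_right (le_abs_self _) (by positivity))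
  rw [div_mul_eq_mul_div, le_div_iff₀ hw]
  calc |(classCount K C x : ℝ) - kappa K * x| * w
      ≤ |C₁| * (x ^ (1 - 1 / (d : ℝ)) * NJ ^ (1 - 1 / (d : ℝ))) := h5
    _ = |C₁| * NJ ^ (1 - 1 / (d : ℝ)) * x ^ (1 - 1 / (d : ℝ)) := by ring

/-- **(P3)** `#{I ∈ C : N(I) ≤ x} = κ x + O(x ^ (1 - 1/d))`, with `κ` independent of the class,
from the lattice point count (P1) and the Lipschitz cover of the frontier of `normLeOne` (P2). -/
theorem classCount_of (h1 : LatticeCountStatement) (h2 : NormLeOneFrontierStatement) :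
    ClassCountStatement := by
  intro K _ _
  choose B hB0 hB using fun C : ClassGroup (𝓞 K) => classCount_sub_le_of K h1 h2 C
  refine ⟨kappa K, ∑ C, B C, fun C x hx => (hB C x hx).trans ?_⟩
  have hx0 : 0 < x := lt_of_lt_of_le one_pos hx
  refine mul_le_mul_of_nonneg_right ?_ (Real.rpow_nonneg hx0.le _)
  exact Finset.single_le_sum (fun c _ => hB0 c) (Finset.mem_univ C)

end Fermat.Agent.S14An
end MergeWrap_S14_Analytic_ClassCount

section MergeWrap_S14_Analytic_LBound -- from S14/Analytic/LBound.lean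

/-!
# S14, H2 Route II, work package P4: `L(s, f)` is bounded near `s = 1` when `∑ f = 0`

`lBound_of : ClassCountStatement → LBoundStatement` (helper50).

With `a n = ∑_{N(I) = n} f([I])` we have `L(s, f) = LSeries a s` and
`∑_{k ≤ n} a k = ∑_c f c * classCount c n = O(n ^ (1 - 1/d))` since `∑ f = 0`; Abel summation
(`LSeries_eq_mul_integral`) gives `‖L(s, f)‖ ≤ s * C * ∫_1^∞ t ^ (r - s - 1) dt ≤ 2 C d`.
-/

set_option autoImplicit false

open NumberField Filter Topology IsDedekindDomain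
open scoped nonZeroDivisors

namespace Fermat.Agent.S14An

variable (K : Type*) [Field K] [NumberField K]

/-- The finite set of ideals of norm `n`. -/
noncomputable def lbFiber (n : ℕ) : Finset (Ideal (𝓞 K)) :=
  (Ideal.finite_setOfPred_absNorm_eq (S := 𝓞 K) n).toFinset

/-- The finite set of nonzero ideals of norm `≤ n`. -/
noncomputable def lbBall (n : ℕ) : Finset (Ideal (𝓞 K)) :=
  ((Set.finite_Icc 1 n).biUnion
    (fun i _ => Ideal.finite_setOfPred_absNorm_eq (S := 𝓞 K) i)).toFinset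

/-- `a n = ∑_{N(I) = n} f([I])`. -/
noncomputable def lbCoeff (f : ClassGroup (𝓞 K) → ℂ) (n : ℕ) : ℂ :=
  ∑ I ∈ lbFiber K n, f (classOf K I)

/-- `M = ∑_c ‖f c‖`. -/
noncomputable def lbMass (f : ClassGroup (𝓞 K) → ℂ) : ℝ := ∑ c, ‖f c‖

variable {K}

lemma mem_lbFiber {n : ℕ} {I : Ideal (𝓞 K)} : I ∈ lbFiber K n ↔ Ideal.absNorm I = n := by
  simp [lbFiber]

lemma mem_lbBall {n : ℕ} {I : Ideal (𝓞 K)} :
    I ∈ lbBall K n ↔ 1 ≤ Ideal.absNorm I ∧ Ideal.absNorm I ≤ n := by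
  simp [lbBall]

lemma lbMass_nonneg (f : ClassGroup (𝓞 K) → ℂ) : 0 ≤ lbMass K f :=
  Finset.sum_nonneg fun _ _ => norm_nonneg _

lemma norm_le_lbMass (f : ClassGroup (𝓞 K) → ℂ) (c : ClassGroup (𝓞 K)) : ‖f c‖ ≤ lbMass K f :=
  Finset.single_le_sum (f := fun c => ‖f c‖) (fun _ _ => norm_nonneg _) (Finset.mem_univ c)

/-! ### Step 1: `L(s, f)` as an `LSeries` -/

lemma norm_twWeight_le (f : ClassGroup (𝓞 K) → ℂ) (s : ℝ) (I : Ideal (𝓞 K)) :
    ‖twWeight K f s I‖ ≤ lbMass K f * FrobDensity.normWeight K s I := by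
  unfold twWeight
  rw [norm_mul, Complex.norm_real, Real.norm_of_nonneg (FrobDensity.normWeight_nonneg s I)]
  exact mul_le_mul_of_nonneg_right (norm_le_lbMass f _) (FrobDensity.normWeight_nonneg s I)

lemma summable_twWeight (f : ClassGroup (𝓞 K) → ℂ) {s : ℝ} (hs : 1 < s) :
    Summable (twWeight K f s) :=
  Summable.of_norm_bounded ((FrobDensity.summable_normWeight K hs).mul_left (lbMass K f))
    (norm_twWeight_le f s)

/-- The sum of `twWeight` over the ideals of norm `n` is the `n`-th term of the `LSeries`. -/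
lemma tsum_fiber_twWeight (f : ClassGroup (𝓞 K) → ℂ) {s : ℝ} (hs : s ≠ 0) (n : ℕ) :
    ∑' I : {I : Ideal (𝓞 K) // Ideal.absNorm I = n}, twWeight K f s I.1
      = LSeries.term (lbCoeff K f) (s : ℂ) n := by
  have hfin : {I : Ideal (𝓞 K) | Ideal.absNorm I = n}.Finite :=
    Ideal.finite_setOfPred_absNorm_eq n
  have h1 : ∑' I : {I : Ideal (𝓞 K) // Ideal.absNorm I = n}, twWeight K f s I.1
      = ∑ I ∈ lbFiber K n, twWeight K f s I := by
    have := Finset.tsum_subtype' (lbFiber K n) (twWeight K f s)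
    rw [← this]
    refine tsum_congr_set_coe (twWeight K f s) ?_
    ext I
    change Ideal.absNorm I = n ↔ I ∈ (lbFiber K n : Set (Ideal (𝓞 K)))
    rw [Finset.mem_coe, mem_lbFiber]
  rw [h1]
  rcases eq_or_ne n 0 with rfl | hn
  · rw [LSeries.term_zero]
    refine Finset.sum_eq_zero fun I hI => ?_
    rw [mem_lbFiber] at hI
    simp [twWeight, FrobDensity.normWeight, hI, Real.zero_rpow (neg_ne_zero.mpr hs)]
  · rw [LSeries.term_of_ne_zero hn, lbCoeff, Finset.sum_div]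
    refine Finset.sum_congr rfl fun I hI => ?_
    rw [mem_lbFiber] at hI
    unfold twWeight FrobDensity.normWeight
    rw [hI, Real.rpow_neg (Nat.cast_nonneg n), Complex.ofReal_inv,
      Complex.ofReal_cpow (Nat.cast_nonneg n), div_eq_mul_inv]
    simp

lemma LVal_eq_LSeries (f : ClassGroup (𝓞 K) → ℂ) {s : ℝ} (hs : 1 < s) :
    LVal K f s = LSeries (lbCoeff K f) (s : ℂ) := by
  have hsum := summable_twWeight f hs
  unfold LVal LSeries
  rw [← (Equiv.sigmaFiberEquiv (fun I : Ideal (𝓞 K) ↦ Ideal.absNorm I)).tsum_eq]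
  rw [← (Equiv.sigmaFiberEquiv (fun I : Ideal (𝓞 K) ↦ Ideal.absNorm I)).summable_iff] at hsum
  change Summable (fun p : (Σ n : ℕ, {I : Ideal (𝓞 K) // Ideal.absNorm I = n}) ↦
    twWeight K f s p.2.1) at hsum
  change ∑' p : (Σ n : ℕ, {I : Ideal (𝓞 K) // Ideal.absNorm I = n}), twWeight K f s p.2.1 = _
  rw [hsum.tsum_sigma]
  exact tsum_congr fun n ↦ tsum_fiber_twWeight f (by linarith) n

/-! ### Step 2: the partial sums of the coefficients -/

lemma sum_Icc_lbCoeff_eq_sum_ball (f : ClassGroup (𝓞 K) → ℂ) (n : ℕ) :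
    ∑ k ∈ Finset.Icc 1 n, lbCoeff K f k = ∑ I ∈ lbBall K n, f (classOf K I) := by
  classical
  rw [← Finset.sum_fiberwise_of_maps_to (s := lbBall K n) (t := Finset.Icc 1 n)
    (g := fun I => Ideal.absNorm I) (fun I hI => Finset.mem_Icc.mpr (mem_lbBall.mp hI))]
  refine Finset.sum_congr rfl fun k hk => ?_
  unfold lbCoeff
  refine Finset.sum_congr ?_ fun _ _ => rfl
  ext I
  rw [mem_lbFiber, Finset.mem_filter, mem_lbBall]
  rw [Finset.mem_Icc] at hk
  constructor
  · intro h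
    exact ⟨by rw [h]; exact hk, h⟩
  · exact fun h => h.2

lemma sum_ball_eq_sum_class (f : ClassGroup (𝓞 K) → ℂ) (n : ℕ) :
    ∑ I ∈ lbBall K n, f (classOf K I)
      = ∑ c, f c * (Nat.card {I : Ideal (𝓞 K) // I ∈ lbBall K n ∧ classOf K I = c} : ℂ) := by
  classical
  rw [← Finset.sum_fiberwise (s := lbBall K n) (g := classOf K)
    (f := fun I => f (classOf K I))]
  refine Finset.sum_congr rfl fun c _ => ?_
  have h1 : ∑ I ∈ lbBall K n with classOf K I = c, f (classOf K I)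
      = ∑ I ∈ lbBall K n with classOf K I = c, f c :=
    Finset.sum_congr rfl fun I hI => by rw [(Finset.mem_filter.mp hI).2]
  rw [h1, Finset.sum_const, nsmul_eq_mul, mul_comm]
  congr 2
  rw [← Nat.card_eq_finsetCard]
  refine Nat.card_congr (Equiv.subtypeEquivRight fun I => ?_)
  rw [Finset.mem_filter]

lemma card_ball_class_eq_classCount (c : ClassGroup (𝓞 K)) (n : ℕ) :
    Nat.card {I : Ideal (𝓞 K) // I ∈ lbBall K n ∧ classOf K I = c} = classCount K c (n : ℝ) := by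
  classical
  unfold classCount
  refine Nat.card_congr ?_
  refine
    { toFun := fun I => ⟨⟨I.1, ?_⟩, ?_, ?_⟩
      invFun := fun I => ⟨I.1.1, ?_, ?_⟩
      left_inv := fun I => rfl
      right_inv := fun I => rfl }
  · have h := (mem_lbBall.mp I.2.1).1
    refine mem_nonZeroDivisors_of_ne_zero fun h0 => ?_
    rw [h0] at h
    simp at h
  · have h := (mem_lbBall.mp I.2.1).2
    exact_mod_cast h
  · have h := I.2.2
    have hne : I.1 ≠ ⊥ := by
      intro h0
      have h1 := (mem_lbBall.mp I.2.1).1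
      rw [h0] at h1
      simp at h1
    simpa [classOf, hne] using h
  · rw [mem_lbBall]
    refine ⟨?_, by exact_mod_cast I.2.1⟩
    have hne : (I.1 : Ideal (𝓞 K)) ≠ ⊥ := nonZeroDivisors.coe_ne_zero I.1
    have : Ideal.absNorm (I.1 : Ideal (𝓞 K)) ≠ 0 := by
      rw [Ne, Ideal.absNorm_eq_zero_iff]; exact hne
    omega
  · have hne : (I.1 : Ideal (𝓞 K)) ≠ ⊥ := nonZeroDivisors.coe_ne_zero I.1
    simpa [classOf, hne] using I.2.2

/-- `∑_{k ≤ n} a k = ∑_c f c * classCount c n`. -/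
lemma sum_Icc_lbCoeff (f : ClassGroup (𝓞 K) → ℂ) (n : ℕ) :
    ∑ k ∈ Finset.Icc 1 n, lbCoeff K f k = ∑ c, f c * (classCount K c (n : ℝ) : ℂ) := by
  rw [sum_Icc_lbCoeff_eq_sum_ball, sum_ball_eq_sum_class]
  refine Finset.sum_congr rfl fun c _ => ?_
  rw [card_ball_class_eq_classCount]

/-! ### Step 3: the partial sums are `O(n ^ r)` -/

lemma norm_sum_Icc_lbCoeff_le (f : ClassGroup (𝓞 K) → ℂ) (hf : ∑ c, f c = 0) {κ B r : ℝ}
    (h : ∀ (C : ClassGroup (𝓞 K)) (x : ℝ), 1 ≤ x →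
      |(classCount K C x : ℝ) - κ * x| ≤ B * x ^ r) (n : ℕ) (hn : 1 ≤ n) :
    ‖∑ k ∈ Finset.Icc 1 n, lbCoeff K f k‖ ≤ lbMass K f * B * (n : ℝ) ^ r := by
  rw [sum_Icc_lbCoeff]
  have hn' : (1 : ℝ) ≤ (n : ℝ) := by exact_mod_cast hn
  have h1 : ∑ c, f c * (classCount K c (n : ℝ) : ℂ)
      = ∑ c, f c * (((classCount K c (n : ℝ) : ℝ) - κ * n : ℝ) : ℂ) := by
    have h0 : ∑ c, f c * (((κ * n : ℝ)) : ℂ) = 0 := by rw [← Finset.sum_mul, hf, zero_mul]
    have h2 : ∑ c, f c * (((classCount K c (n : ℝ) : ℝ) - κ * n : ℝ) : ℂ)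
        = ∑ c, f c * (classCount K c (n : ℝ) : ℂ) - ∑ c, f c * (((κ * n : ℝ)) : ℂ) := by
      rw [← Finset.sum_sub_distrib]
      refine Finset.sum_congr rfl fun c _ => ?_
      push_cast
      ring
    rw [h2, h0, sub_zero]
  rw [h1]
  calc ‖∑ c, f c * (((classCount K c (n : ℝ) : ℝ) - κ * n : ℝ) : ℂ)‖
      ≤ ∑ c, ‖f c * (((classCount K c (n : ℝ) : ℝ) - κ * n : ℝ) : ℂ)‖ := norm_sum_le _ _
    _ ≤ ∑ c, ‖f c‖ * (B * (n : ℝ) ^ r) := by
        refine Finset.sum_le_sum fun c _ => ?_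
        rw [norm_mul, Complex.norm_real, Real.norm_eq_abs]
        exact mul_le_mul_of_nonneg_left (h c n hn') (norm_nonneg _)
    _ = lbMass K f * B * (n : ℝ) ^ r := by
        rw [← Finset.sum_mul]
        unfold lbMass
        ring

lemma lbBound_nonneg {κ B r : ℝ}
    (h : ∀ (C : ClassGroup (𝓞 K)) (x : ℝ), 1 ≤ x →
      |(classCount K C x : ℝ) - κ * x| ≤ B * x ^ r) : 0 ≤ B := by
  have h1 := h 1 1 le_rfl
  simp only [Real.one_rpow, mul_one] at h1
  exact (abs_nonneg _).trans h1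

/-! ### Step 4: summability of the `LSeries` -/

lemma norm_lbCoeff_le (f : ClassGroup (𝓞 K) → ℂ) (n : ℕ) :
    ‖lbCoeff K f n‖ ≤ lbMass K f * (FrobDensity.idealCountAux K n : ℝ) := by
  unfold lbCoeff
  calc ‖∑ I ∈ lbFiber K n, f (classOf K I)‖
      ≤ ∑ I ∈ lbFiber K n, ‖f (classOf K I)‖ := norm_sum_le _ _
    _ ≤ ∑ _I ∈ lbFiber K n, lbMass K f := Finset.sum_le_sum fun I _ => norm_le_lbMass f _
    _ = lbMass K f * ((lbFiber K n).card : ℝ) := by
        rw [Finset.sum_const, nsmul_eq_mul, mul_comm]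
    _ = lbMass K f * (FrobDensity.idealCountAux K n : ℝ) := by
        congr 2
        unfold FrobDensity.idealCountAux
        rw [← Nat.card_eq_finsetCard]
        refine Nat.card_congr (Equiv.subtypeEquivRight fun I => ?_)
        rw [mem_lbFiber]

lemma lseriesSummable_lbCoeff (f : ClassGroup (𝓞 K) → ℂ) {s : ℝ} (hs : 1 < s) :
    LSeriesSummable (lbCoeff K f) (s : ℂ) := by
  unfold LSeriesSummable
  refine Summable.of_norm_bounded
    ((FrobDensity.summable_idealCountAux_mul K hs).mul_left (lbMass K f)) fun n => ?_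
  rw [LSeries.norm_term_eq]
  split_ifs with hn
  · subst hn
    have : (0 : ℝ) ≤ lbMass K f *
        ((FrobDensity.idealCountAux K 0 : ℝ) * ((0 : ℕ) : ℝ) ^ (-s)) :=
      mul_nonneg (lbMass_nonneg f)
        (mul_nonneg (Nat.cast_nonneg _) (Real.rpow_nonneg (Nat.cast_nonneg _) _))
    exact this
  · have hpos : (0 : ℝ) < (n : ℝ) := by exact_mod_cast Nat.pos_of_ne_zero hn
    rw [Complex.ofReal_re, div_eq_mul_inv, ← Real.rpow_neg hpos.le, ← mul_assoc]
    exact mul_le_mul_of_nonneg_right (norm_lbCoeff_le f n) (Real.rpow_nonneg hpos.le _)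

/-! ### Step 5: Abel summation -/

lemma isBigO_sum_Icc_lbCoeff (f : ClassGroup (𝓞 K) → ℂ) (hf : ∑ c, f c = 0) {κ B r : ℝ}
    (h : ∀ (C : ClassGroup (𝓞 K)) (x : ℝ), 1 ≤ x →
      |(classCount K C x : ℝ) - κ * x| ≤ B * x ^ r) :
    (fun n : ℕ ↦ ∑ k ∈ Finset.Icc 1 n, lbCoeff K f k) =O[atTop] fun n ↦ ((n : ℝ) ^ r : ℝ) := by
  refine Asymptotics.IsBigO.of_bound (lbMass K f * B) ?_
  filter_upwards [eventually_ge_atTop 1] with n hn
  have hpos : (0 : ℝ) ≤ (n : ℝ) ^ r := Real.rpow_nonneg (Nat.cast_nonneg n) r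
  rw [Real.norm_of_nonneg hpos]
  exact norm_sum_Icc_lbCoeff_le f hf h n hn

/-- The bound on the integrand of the Abel summation formula. -/
lemma norm_integrand_le (f : ClassGroup (𝓞 K) → ℂ) (hf : ∑ c, f c = 0) {κ B r : ℝ}
    (hr : 0 ≤ r)
    (h : ∀ (C : ClassGroup (𝓞 K)) (x : ℝ), 1 ≤ x →
      |(classCount K C x : ℝ) - κ * x| ≤ B * x ^ r) (s : ℝ) {t : ℝ} (ht : 1 < t) :
    ‖(∑ k ∈ Finset.Icc 1 ⌊t⌋₊, lbCoeff K f k) * (t : ℂ) ^ (-((s : ℂ) + 1))‖
      ≤ (lbMass K f * B) * t ^ (r - s - 1) := by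
  have ht0 : 0 < t := zero_lt_one.trans ht
  have hfl : 1 ≤ ⌊t⌋₊ := Nat.le_floor (by simpa using ht.le)
  have hB := lbBound_nonneg h
  rw [norm_mul, Complex.norm_cpow_eq_rpow_re_of_pos ht0]
  have hre : (-((s : ℂ) + 1)).re = -s - 1 := by simp; ring
  rw [hre]
  have h1 := norm_sum_Icc_lbCoeff_le f hf h ⌊t⌋₊ hfl
  have h2 : ((⌊t⌋₊ : ℕ) : ℝ) ^ r ≤ t ^ r :=
    Real.rpow_le_rpow (Nat.cast_nonneg _) (Nat.floor_le ht0.le) hr
  have h3 : ‖∑ k ∈ Finset.Icc 1 ⌊t⌋₊, lbCoeff K f k‖ ≤ lbMass K f * B * t ^ r :=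
    h1.trans (mul_le_mul_of_nonneg_left h2 (mul_nonneg (lbMass_nonneg f) hB))
  calc ‖∑ k ∈ Finset.Icc 1 ⌊t⌋₊, lbCoeff K f k‖ * t ^ (-s - 1)
      ≤ (lbMass K f * B * t ^ r) * t ^ (-s - 1) :=
        mul_le_mul_of_nonneg_right h3 (Real.rpow_nonneg ht0.le _)
    _ = (lbMass K f * B) * t ^ (r - s - 1) := by
        rw [mul_assoc, ← Real.rpow_add ht0]
        congr 2
        ring

/-- `‖L(s, f)‖ ≤ s * M * B / (s - r)`. -/
lemma norm_LVal_le (f : ClassGroup (𝓞 K) → ℂ) (hf : ∑ c, f c = 0) {κ B r : ℝ}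
    (hr : 0 ≤ r) (hr1 : r < 1)
    (h : ∀ (C : ClassGroup (𝓞 K)) (x : ℝ), 1 ≤ x →
      |(classCount K C x : ℝ) - κ * x| ≤ B * x ^ r) {s : ℝ} (hs : 1 < s) :
    ‖LVal K f s‖ ≤ s * ((lbMass K f * B) / (s - r)) := by
  have hrs : r < (s : ℂ).re := by simpa using hr1.trans hs
  rw [LVal_eq_LSeries f hs, LSeries_eq_mul_integral (lbCoeff K f) hr hrs
    (lseriesSummable_lbCoeff f hs) (isBigO_sum_Icc_lbCoeff f hf h), norm_mul, Complex.norm_real,
    Real.norm_of_nonneg (by linarith : (0 : ℝ) ≤ s)]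
  refine mul_le_mul_of_nonneg_left ?_ (by linarith)
  have ha : r - s - 1 < -1 := by linarith
  have hint : MeasureTheory.Integrable (fun t : ℝ => (lbMass K f * B) * t ^ (r - s - 1))
      (MeasureTheory.volume.restrict (Set.Ioi (1 : ℝ))) :=
    (integrableOn_Ioi_rpow_of_lt ha zero_lt_one).const_mul _
  have hle := MeasureTheory.norm_integral_le_of_norm_le hint
    (f := fun t : ℝ => (∑ k ∈ Finset.Icc 1 ⌊t⌋₊, lbCoeff K f k) * (t : ℂ) ^ (-((s : ℂ) + 1)))
    ((MeasureTheory.ae_restrict_iff' measurableSet_Ioi).mpr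
      (Filter.Eventually.of_forall fun t ht => norm_integrand_le f hf hr h s ht))
  refine hle.trans (le_of_eq ?_)
  rw [MeasureTheory.integral_const_mul, integral_Ioi_rpow_of_lt ha zero_lt_one, Real.one_rpow]
  have hne : s - r ≠ 0 := by linarith
  have hne' : r - s - 1 + 1 ≠ 0 := by
    intro h0
    apply hne
    linarith
  field_simp
  ring

/-- **(P4)** `ClassCountStatement → LBoundStatement`. -/
theorem lBound_of (hCC : ClassCountStatement) : LBoundStatement := by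
  intro K _ _ f hf
  obtain ⟨κ, B, h⟩ := hCC K
  have hd : (1 : ℝ) ≤ (Module.finrank ℚ K : ℝ) := by
    exact_mod_cast Module.finrank_pos (R := ℚ) (M := K)
  set d : ℝ := (Module.finrank ℚ K : ℝ) with hd_def
  have hd0 : 0 < d := zero_lt_one.trans_le hd
  have hr : (0 : ℝ) ≤ 1 - 1 / d := by
    rw [sub_nonneg, div_le_one hd0]
    exact hd
  have hr1 : 1 - 1 / d < 1 := by
    have : 0 < 1 / d := by positivity
    linarith
  have hB := lbBound_nonneg h
  have hM := lbMass_nonneg f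
  refine ⟨2 * (lbMass K f * B * d), fun s hs hs2 => ?_⟩
  refine (norm_LVal_le f hf hr hr1 h hs).trans ?_
  have hsr : 1 / d ≤ s - (1 - 1 / d) := by linarith
  have hsr0 : 0 < s - (1 - 1 / d) := lt_of_lt_of_le (by positivity) hsr
  have h1 : (lbMass K f * B) / (s - (1 - 1 / d)) ≤ lbMass K f * B * d := by
    rw [div_le_iff₀ hsr0]
    have h2 : lbMass K f * B * d * (1 / d) ≤ lbMass K f * B * d * (s - (1 - 1 / d)) :=
      mul_le_mul_of_nonneg_left hsr (by positivity)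
    have h3 : lbMass K f * B * d * (1 / d) = lbMass K f * B := by
      field_simp
    linarith
  have h4 : 0 ≤ lbMass K f * B * d := by positivity
  calc s * ((lbMass K f * B) / (s - (1 - 1 / d)))
      ≤ s * (lbMass K f * B * d) := mul_le_mul_of_nonneg_left h1 (by linarith)
    _ ≤ 2 * (lbMass K f * B * d) := mul_le_mul_of_nonneg_right hs2 h4

end Fermat.Agent.S14An
end MergeWrap_S14_Analytic_LBound

section MergeWrap_S14_Analytic_P8Defs -- from S14/Analytic/P8Defs.lean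

/-!
# S14, H2 Route II, step P8 (assembly): interface

`P8L` (lower bound) + `P8U` (upper bound) ⟹ `P8F` : `Fermat.Agent.S14.SecondIneq`.

For a subgroup `N` of the class group of `E` put `G = Cl_E ⧸ N`, `h = |G| = N.index` and
`LProd E N s = ∏_ψ ‖L(s, ψ)‖`, the product over all characters `ψ : G →* ℂˣ`
(viewed as characters of `Cl_E`).

* **P8L** (from P5 `eulerChar`, P6 `charProd`, P7 `normClassPrimeSum`): if `N` contains the norm
  classes of `M/E`, then `LProd E N s ≥ c (1/(s-1))^(h/n)` for `s → 1⁺`, `n = [M : E]`.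
  (P5 for every `ψ` and a finite set `T` of primes, multiply over `ψ`; by P6 the product over `ψ`
  of the Euler factors at `𝔭` is `≤ 1`, and `= (1 - N𝔭^(-s))^h ≤ exp (-h N𝔭^(-s))` if `[𝔭] ∈ N`;
  let `T` grow: `sieveSum T → 1`; then P7.)
* **P8U** (from P4 `lBound_of`): `LProd E N s ≤ C / (s-1)` on `(1, 2]`.
  (The factor `ψ = 1` is `ζ_E(s) ≤ C₀/(s-1)`; the others are bounded by P4, since a nontrivial
  character sums to `0`.)
* **P8F**: `c (1/(s-1))^(h/n) ≤ C/(s-1)` near `1` forces `h ≤ n`.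
-/

set_option autoImplicit false

open NumberField
open scoped nonZeroDivisors

namespace Fermat.Agent.S14An

/-- The character of the class group attached to a character of `Cl ⧸ N`. -/
noncomputable def liftChar (E : Type) [Field E] [NumberField E]
    (N : Subgroup (ClassGroup (𝓞 E))) (ψ : (ClassGroup (𝓞 E) ⧸ N) →* ℂˣ) :
    ClassGroup (𝓞 E) →* ℂˣ :=
  ψ.comp (QuotientGroup.mk' N)

/-- `∏_ψ ‖L(s, ψ)‖` over the characters `ψ` of `Cl ⧸ N` (a finite product). -/
noncomputable def LProd (E : Type) [Field E] [NumberField E]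
    (N : Subgroup (ClassGroup (𝓞 E))) (s : ℝ) : ℝ :=
  ∏ᶠ ψ : (ClassGroup (𝓞 E) ⧸ N) →* ℂˣ, ‖LVal E (fun c => ((liftChar E N ψ c : ℂˣ) : ℂ)) s‖

/-- **(P8L)** lower bound for `LProd` near `s = 1`. -/
def LProdLowerStatement : Prop :=
  ∀ (E M : Type) [Field E] [NumberField E] [Field M] [NumberField M] [Algebra E M]
    (N : Subgroup (ClassGroup (𝓞 E))), (∀ c ∈ S14.normClasses E M, c ∈ N) →
    ∃ c δ : ℝ, 0 < c ∧ 0 < δ ∧ ∀ s : ℝ, 1 < s → s < 1 + δ →
      c * (1 / (s - 1)) ^ ((N.index : ℝ) / (Module.finrank E M : ℝ)) ≤ LProd E N s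

/-- **(P8U)** upper bound for `LProd` on `(1, 2]`. -/
def LProdUpperStatement : Prop :=
  ∀ (E : Type) [Field E] [NumberField E] (N : Subgroup (ClassGroup (𝓞 E))),
    ∃ C : ℝ, ∀ s : ℝ, 1 < s → s ≤ 2 → LProd E N s ≤ C / (s - 1)

end Fermat.Agent.S14An
end MergeWrap_S14_Analytic_P8Defs

section MergeWrap_S14_Analytic_EulerChar -- from S14/Analytic/EulerChar.lean

/-!
# S14 / H2 Route II, work package P5: the Euler product of `L(s, χ)` in sieve form (helper59)
-/

set_option autoImplicit false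

open NumberField Filter Topology IsDedekindDomain
open scoped nonZeroDivisors Pointwise

namespace Fermat.Agent.S14An

open Fermat.Agent.FrobDensity

section Sieve

variable {R : Type*} [CommRing R] [IsDedekindDomain R]

/-- The sieved sum of a complex weight. -/
noncomputable def csieveSum (w : Ideal R → ℂ) (T : Finset (HeightOneSpectrum R)) : ℂ :=
  ∑' I : Ideal R, (sieveSet T).indicator w I

variable {w : Ideal R → ℂ}

lemma csieveSum_insert [DecidableEq (HeightOneSpectrum R)]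
    (hmul : ∀ I J, w (I * J) = w I * w J) (hsum : Summable w)
    (T : Finset (HeightOneSpectrum R)) (𝔭 : HeightOneSpectrum R) (h𝔭 : 𝔭 ∉ T) :
    csieveSum w (insert 𝔭 T) = (1 - w 𝔭.asIdeal) * csieveSum w T := by
  have hinj : Function.Injective (fun J : Ideal R => 𝔭.asIdeal * J) :=
    mul_right_injective₀ 𝔭.ne_bot
  have h1 : csieveSum w T = csieveSum w (insert 𝔭 T) +
      ∑' I : Ideal R, ((fun J => 𝔭.asIdeal * J) '' sieveSet T).indicator w I := by
    unfold csieveSum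
    rw [← Summable.tsum_add (hsum.indicator _) (hsum.indicator _)]
    congr 1
    ext I
    conv_lhs => rw [sieveSet_eq_union T 𝔭 h𝔭]
    exact congrFun (Set.indicator_union_of_disjoint (sieveSet_disjoint T 𝔭) w) I
  have h2 : ∑' I : Ideal R, ((fun J => 𝔭.asIdeal * J) '' sieveSet T).indicator w I
      = w 𝔭.asIdeal * csieveSum w T := by
    unfold csieveSum
    rw [← tsum_subtype, tsum_image w hinj.injOn, ← tsum_subtype, ← tsum_mul_left]
    congr 1
    ext J
    exact hmul _ _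
  rw [h2] at h1
  linear_combination -h1

omit [IsDedekindDomain R] in
lemma csieveSum_empty (hbot : w ⊥ = 0) : csieveSum w ∅ = ∑' I, w I := by
  unfold csieveSum
  congr 1
  ext I
  by_cases hI : I = ⊥
  · subst hI
    simp [sieveSet, hbot]
  · rw [Set.indicator_of_mem]
    exact ⟨hI, by simp⟩

lemma csieveSum_eq_prod [DecidableEq (HeightOneSpectrum R)]
    (hmul : ∀ I J, w (I * J) = w I * w J) (hbot : w ⊥ = 0) (hsum : Summable w)
    (T : Finset (HeightOneSpectrum R)) :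
    csieveSum w T = (∏ 𝔭 ∈ T, (1 - w 𝔭.asIdeal)) * ∑' I, w I := by
  induction T using Finset.induction_on with
  | empty => simp [csieveSum_empty hbot]
  | insert 𝔭 T h𝔭 ih =>
    rw [csieveSum_insert hmul hsum T 𝔭 h𝔭, ih, Finset.prod_insert h𝔭]
    ring

/-- The sieved sum is `1` up to the real sieved sum of the norms minus one. -/
lemma two_sub_sieveSum_le_norm_csieveSum (htop : w ⊤ = 1)
    (hsum : Summable fun I => ‖w I‖) (T : Finset (HeightOneSpectrum R)) :
    2 - sieveSum (fun I => ‖w I‖) T ≤ ‖csieveSum w T‖ := by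
  classical
  have hsumw : Summable w := hsum.of_norm
  -- split off the unit ideal
  set A : Set (Ideal R) := sieveSet T \ {⊤} with hA
  have hsplit : ∀ (f : Ideal R → ℂ), (sieveSet T).indicator f =
      fun I => ({⊤} : Set (Ideal R)).indicator f I + A.indicator f I := by
    intro f
    have hunion : sieveSet T = {⊤} ∪ A := by
      rw [hA, Set.union_sdiff_self, Set.union_eq_self_of_subset_left]
      exact Set.singleton_subset_iff.mpr (top_mem_sieveSet T)
    have hdisj : Disjoint ({⊤} : Set (Ideal R)) A := by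
      rw [hA]
      exact Set.disjoint_sdiff_right
    conv_lhs => rw [hunion]
    exact Set.indicator_union_of_disjoint hdisj f
  have hsplitR : ∀ (f : Ideal R → ℝ), (sieveSet T).indicator f =
      fun I => ({⊤} : Set (Ideal R)).indicator f I + A.indicator f I := by
    intro f
    have hunion : sieveSet T = {⊤} ∪ A := by
      rw [hA, Set.union_sdiff_self, Set.union_eq_self_of_subset_left]
      exact Set.singleton_subset_iff.mpr (top_mem_sieveSet T)
    have hdisj : Disjoint ({⊤} : Set (Ideal R)) A := by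
      rw [hA]
      exact Set.disjoint_sdiff_right
    conv_lhs => rw [hunion]
    exact Set.indicator_union_of_disjoint hdisj f
  have e1 : csieveSum w T = 1 + ∑' I, A.indicator w I := by
    unfold csieveSum
    rw [hsplit w, Summable.tsum_add (hsumw.indicator _) (hsumw.indicator _),
      ← tsum_subtype ({⊤} : Set (Ideal R)) w, tsum_singleton (⊤ : Ideal R) w, htop]
  have e2 : sieveSum (fun I => ‖w I‖) T = 1 + ∑' I, A.indicator (fun I => ‖w I‖) I := by
    unfold sieveSum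
    rw [hsplitR (fun I => ‖w I‖), Summable.tsum_add (hsum.indicator _) (hsum.indicator _),
      ← tsum_subtype ({⊤} : Set (Ideal R)) (fun I => ‖w I‖),
      tsum_singleton (⊤ : Ideal R) (fun I => ‖w I‖), htop, norm_one]
  have e3 : ‖∑' I, A.indicator w I‖ ≤ ∑' I, A.indicator (fun I => ‖w I‖) I := by
    have hn : ∀ I, ‖A.indicator w I‖ = A.indicator (fun I => ‖w I‖) I := by
      intro I
      by_cases hI : I ∈ A
      · rw [Set.indicator_of_mem hI, Set.indicator_of_mem hI]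
      · rw [Set.indicator_of_notMem hI, Set.indicator_of_notMem hI, norm_zero]
    have hs : Summable fun I => ‖A.indicator w I‖ := by
      simp_rw [hn]
      exact hsum.indicator _
    calc ‖∑' I, A.indicator w I‖ ≤ ∑' I, ‖A.indicator w I‖ := norm_tsum_le_tsum_norm hs
      _ = ∑' I, A.indicator (fun I => ‖w I‖) I := tsum_congr hn
  rw [e1, e2]
  have h4 : ‖(1 : ℂ)‖ - ‖∑' I, A.indicator w I‖ ≤ ‖1 + ∑' I, A.indicator w I‖ := by
    have := norm_sub_norm_le (1 : ℂ) (-(∑' I, A.indicator w I))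
    rwa [norm_neg, sub_neg_eq_add] at this
  rw [norm_one] at h4
  linarith

end Sieve

section NumberField

variable {K : Type} [Field K] [NumberField K]

lemma norm_char_eq_one (χ : ClassGroup (𝓞 K) →* ℂˣ) (c : ClassGroup (𝓞 K)) :
    ‖(χ c : ℂ)‖ = 1 := by
  have h : (χ c : ℂ) ^ Fintype.card (ClassGroup (𝓞 K)) = 1 := by
    rw [← Units.val_pow_eq_pow_val, ← map_pow, pow_card_eq_one, map_one, Units.val_one]
  exact Complex.norm_eq_one_of_pow_eq_one h Fintype.card_ne_zero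

lemma classOf_mul {I J : Ideal (𝓞 K)} (hI : I ≠ ⊥) (hJ : J ≠ ⊥) :
    classOf K (I * J) = classOf K I * classOf K J := by
  have hIJ : I * J ≠ ⊥ := mul_ne_zero hI hJ
  unfold classOf
  rw [dif_neg hI, dif_neg hJ, dif_neg hIJ, ← map_mul]
  rfl

lemma norm_twWeight (χ : ClassGroup (𝓞 K) →* ℂˣ) (s : ℝ) (I : Ideal (𝓞 K)) :
    ‖twWeight K (fun c => (χ c : ℂ)) s I‖ = normWeight K s I := by
  unfold twWeight
  rw [norm_mul, norm_char_eq_one, one_mul, Complex.norm_real, Real.norm_eq_abs,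
    abs_of_nonneg (normWeight_nonneg s I)]

lemma twWeight_mul (χ : ClassGroup (𝓞 K) →* ℂˣ) {s : ℝ} (hs : s ≠ 0) (I J : Ideal (𝓞 K)) :
    twWeight K (fun c => (χ c : ℂ)) s (I * J) =
      twWeight K (fun c => (χ c : ℂ)) s I * twWeight K (fun c => (χ c : ℂ)) s J := by
  by_cases hI : I = ⊥
  · subst hI
    simp [twWeight, normWeight_bot hs]
  by_cases hJ : J = ⊥
  · subst hJ
    simp [twWeight, normWeight_bot hs]
  unfold twWeight
  simp only
  rw [classOf_mul hI hJ, map_mul, Units.val_mul, normWeight_mul, Complex.ofReal_mul]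
  ring

lemma twWeight_top (χ : ClassGroup (𝓞 K) →* ℂˣ) (s : ℝ) :
    twWeight K (fun c => (χ c : ℂ)) s ⊤ = 1 := by
  have h1 : classOf K (⊤ : Ideal (𝓞 K)) = 1 := by
    unfold classOf
    rw [dif_neg top_ne_bot]
    have : (⟨⊤, mem_nonZeroDivisors_of_ne_zero top_ne_bot⟩ : (Ideal (𝓞 K))⁰) = 1 :=
      Subtype.ext (by simp)
    rw [this, map_one]
  unfold twWeight
  simp only
  rw [h1, map_one, normWeight_top]
  simp

lemma twWeight_bot (χ : ClassGroup (𝓞 K) →* ℂˣ) {s : ℝ} (hs : s ≠ 0) :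
    twWeight K (fun c => (χ c : ℂ)) s ⊥ = 0 := by
  simp [twWeight, normWeight_bot hs]

end NumberField

/-- **(P5)** the Euler product of `L(s, χ)` in sieve form. -/
theorem eulerChar : EulerCharStatement := by
  intro K _ _ χ s hs T
  classical
  set w : Ideal (𝓞 K) → ℂ := twWeight K (fun c => (χ c : ℂ)) s with hw
  have hs0 : s ≠ 0 := by linarith
  have hnorm : (fun I => ‖w I‖) = normWeight K s := funext fun I => norm_twWeight χ s I
  have hsumn : Summable fun I => ‖w I‖ := by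
    rw [hnorm]
    exact summable_normWeight K hs
  have hsumw : Summable w := hsumn.of_norm
  have h1 := two_sub_sieveSum_le_norm_csieveSum (w := w) (twWeight_top χ s) hsumn T
  rw [hnorm] at h1
  have h2 := csieveSum_eq_prod (w := w) (twWeight_mul χ hs0) (twWeight_bot χ hs0) hsumw T
  rw [h2, norm_mul, norm_prod, mul_comm] at h1
  exact h1

end Fermat.Agent.S14An
end MergeWrap_S14_Analytic_EulerChar

section MergeWrap_S14_Analytic_CharProd -- from S14/Analytic/CharProd.lean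

/-!
# S14, H2 Route II, work package P6: the character product

For a finite abelian group `G`, `g : G` and `0 ≤ x < 1`:
`∏_χ ‖1 - χ(g) x‖ ≤ 1`, with value `(1 - x) ^ |G|` when `g = 1`.

Proof: `-log ‖1 - z‖ = Re ∑_{k ≥ 1} z ^ k / k` for `‖z‖ < 1`, and `Re ∑_χ χ(a) ≥ 0` for every `a`
(the sum is `0` as soon as one character is nontrivial at `a`, and is the number of characters
otherwise).
-/

set_option autoImplicit false

namespace Fermat.Agent.S14An

/-- The real part of a character sum is nonnegative. -/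
lemma H69_re_sum_char_nonneg (G : Type) [CommGroup G] [Fintype (G →* ℂˣ)] (a : G) :
    0 ≤ (∑ χ : G →* ℂˣ, ((χ a : ℂˣ) : ℂ)).re := by
  by_cases h : ∀ χ : G →* ℂˣ, χ a = 1
  · simp [h]
  · push Not at h
    obtain ⟨φ, hφ⟩ := h
    have hsum : (∑ χ : G →* ℂˣ, ((χ a : ℂˣ) : ℂ)) =
        ((φ a : ℂˣ) : ℂ) * ∑ χ : G →* ℂˣ, ((χ a : ℂˣ) : ℂ) := by
      rw [Finset.mul_sum]
      refine (Fintype.sum_equiv (Equiv.mulLeft φ) _ _ fun χ => ?_).symm
      simp
    have hne : ((φ a : ℂˣ) : ℂ) - 1 ≠ 0 := by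
      intro h0
      apply hφ
      ext
      simpa [sub_eq_zero] using h0
    have h0 : (∑ χ : G →* ℂˣ, ((χ a : ℂˣ) : ℂ)) = 0 := by
      have : (((φ a : ℂˣ) : ℂ) - 1) * ∑ χ : G →* ℂˣ, ((χ a : ℂˣ) : ℂ) = 0 := by
        rw [sub_mul, one_mul, ← hsum, sub_self]
      rcases mul_eq_zero.mp this with h1 | h1
      · exact absurd h1 hne
      · exact h1
    simp [h0]

/-- **(P6)** the character product. -/
theorem charProd : CharProdStatement := by
  intro G _ _ _ g x hx0 hx1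
  have hnorm : ∀ χ : G →* ℂˣ, ‖((χ g : ℂˣ) : ℂ)‖ = 1 := by
    intro χ
    have hfin : ((χ g : ℂˣ) : ℂ) ^ (orderOf g) = 1 := by
      rw [← Units.val_pow_eq_pow_val, ← map_pow, pow_orderOf_eq_one, map_one, Units.val_one]
    exact Complex.norm_eq_one_of_pow_eq_one hfin (orderOf_pos g).ne'
  have hz : ∀ χ : G →* ℂˣ, ‖((χ g : ℂˣ) : ℂ) * (x : ℂ)‖ < 1 := by
    intro χ
    rw [norm_mul, hnorm, one_mul, Complex.norm_real, Real.norm_of_nonneg hx0]
    exact hx1
  have hne : ∀ χ : G →* ℂˣ, 1 - ((χ g : ℂˣ) : ℂ) * (x : ℂ) ≠ 0 := by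
    intro χ h
    have h1 := hz χ
    rw [sub_eq_zero] at h
    rw [← h] at h1
    simp at h1
  have hpos : ∀ χ : G →* ℂˣ, 0 < ‖1 - ((χ g : ℂˣ) : ℂ) * (x : ℂ)‖ :=
    fun χ => norm_pos_iff.mpr (hne χ)
  constructor
  · have hS : HasSum (fun n : ℕ => ∑ χ : G →* ℂˣ, (((χ g : ℂˣ) : ℂ) * (x : ℂ)) ^ n / n)
        (∑ χ : G →* ℂˣ, -Complex.log (1 - ((χ g : ℂˣ) : ℂ) * (x : ℂ))) :=
      hasSum_sum fun χ _ => Complex.hasSum_taylorSeries_neg_log (hz χ)
    have hre := Complex.hasSum_re hS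
    have hterm : ∀ n : ℕ,
        0 ≤ (∑ χ : G →* ℂˣ, (((χ g : ℂˣ) : ℂ) * (x : ℂ)) ^ n / n).re := by
      intro n
      have h1 : (∑ χ : G →* ℂˣ, (((χ g : ℂˣ) : ℂ) * (x : ℂ)) ^ n / n) =
          ((x ^ n / n : ℝ) : ℂ) * ∑ χ : G →* ℂˣ, ((χ (g ^ n) : ℂˣ) : ℂ) := by
        rw [Finset.mul_sum]
        refine Finset.sum_congr rfl fun χ _ => ?_
        rw [map_pow]
        push_cast
        ring
      rw [h1, Complex.re_ofReal_mul]
      exact mul_nonneg (by positivity) (H69_re_sum_char_nonneg G (g ^ n))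
    have h0 : 0 ≤ (∑ χ : G →* ℂˣ, -Complex.log (1 - ((χ g : ℂˣ) : ℂ) * (x : ℂ))).re :=
      hre.nonneg hterm
    have hlog : (∑ χ : G →* ℂˣ, -Complex.log (1 - ((χ g : ℂˣ) : ℂ) * (x : ℂ))).re =
        - Real.log (∏ χ : G →* ℂˣ, ‖1 - ((χ g : ℂˣ) : ℂ) * (x : ℂ)‖) := by
      rw [Real.log_prod (fun χ _ => (hpos χ).ne'), Complex.re_sum, ← Finset.sum_neg_distrib]
      refine Finset.sum_congr rfl fun χ _ => ?_
      rw [Complex.neg_re, Complex.log_re]
    rw [hlog] at h0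
    have hprodpos : 0 < ∏ χ : G →* ℂˣ, ‖1 - ((χ g : ℂˣ) : ℂ) * (x : ℂ)‖ :=
      Finset.prod_pos fun χ _ => hpos χ
    have h2 : Real.log (∏ χ : G →* ℂˣ, ‖1 - ((χ g : ℂˣ) : ℂ) * (x : ℂ)‖) ≤ 0 := by linarith
    exact (Real.log_nonpos_iff hprodpos.le).mp h2
  · rintro rfl
    simp only [map_one, Units.val_one, one_mul]
    have h1 : ‖(1 : ℂ) - (x : ℂ)‖ = 1 - x := by
      rw [← Complex.ofReal_one, ← Complex.ofReal_sub, Complex.norm_real,
        Real.norm_of_nonneg (by linarith)]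
    rw [Finset.prod_const, h1, Finset.card_univ]
    congr 1
    rw [Fintype.card_eq_nat_card, Fintype.card_eq_nat_card]
    exact CommGroup.card_monoidHom_of_hasEnoughRootsOfUnity G ℂ

end Fermat.Agent.S14An
end MergeWrap_S14_Analytic_CharProd

section MergeWrap_S14_Analytic_NormClassPrimes -- from S14/Analytic/NormClassPrimes.lean

/-!
# S14, H2 Route II, work package P7: primes whose class is a norm class

For a finite extension `M/E` of number fields of degree `n`: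
`∑_{𝔮 : [𝔮] is a norm class} N𝔮^(-s) ≥ (1/n) log (1/(s-1)) - B` for `s` close to `1`.

Proof: every prime `𝔔` of `M` lies over `𝔮 = 𝔔 ∩ 𝓞 E`, `N𝔔 = N𝔮 ^ f`, at most `n` primes `𝔔` lie
over a given `𝔮`; if `f = 1` then `relNorm 𝔔 = 𝔮`, so `[𝔮]` is a norm class, if `f ≥ 2` then
`N𝔔^(-s) ≤ N𝔮^(-2)`.  Hence `primeSum M s ≤ n (∑_{norm classes} N𝔮^(-s) + primeSum E 2)`, and
`primeSum M s = log (1/(s-1)) + O(1)` (helper59's `exists_bound_primeSum_sub_log`).
-/

set_option autoImplicit false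

open NumberField Filter Topology IsDedekindDomain
open scoped nonZeroDivisors

namespace Fermat.Agent.S14An

section P7

variable (E M : Type) [Field E] [NumberField E] [Field M] [NumberField M] [Algebra E M]

/-- The relative norm of a prime `𝔔` of `M` is `𝔮 ^ f`, `𝔮` the prime below. -/
lemma p7_relNorm_prime (𝔔 : HeightOneSpectrum (𝓞 M)) :
    Ideal.relNorm (𝓞 E) 𝔔.asIdeal =
      (𝔔.under (𝓞 E)).asIdeal ^ (𝔔.asIdeal.inertiaDeg (𝓞 E)) := by
  have := 𝔔.isMaximal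
  have := (𝔔.under (𝓞 E)).isMaximal
  have : 𝔔.asIdeal.LiesOver (𝔔.under (𝓞 E)).asIdeal := ⟨rfl⟩
  exact Ideal.relNorm_eq_pow_of_isMaximal 𝔔.asIdeal (𝔔.under (𝓞 E)).asIdeal

lemma p7_inertiaDeg_pos (𝔔 : HeightOneSpectrum (𝓞 M)) :
    0 < 𝔔.asIdeal.inertiaDeg (𝓞 E) := by
  have := 𝔔.isPrime
  exact Ideal.inertiaDeg_pos _ _

/-- `N𝔔 = N𝔮 ^ f`. -/
lemma p7_absNorm_prime (𝔔 : HeightOneSpectrum (𝓞 M)) :
    Ideal.absNorm 𝔔.asIdeal =
      Ideal.absNorm (𝔔.under (𝓞 E)).asIdeal ^ (𝔔.asIdeal.inertiaDeg (𝓞 E)) := by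
  rw [← Ideal.absNorm_relNorm (R := 𝓞 E) (I := 𝔔.asIdeal), p7_relNorm_prime, map_pow]

/-- If `f(𝔔 | 𝔮) = 1` then the class of `𝔮` is a norm class. -/
lemma p7_mem_normClasses (𝔔 : HeightOneSpectrum (𝓞 M))
    (hf : 𝔔.asIdeal.inertiaDeg (𝓞 E) = 1) :
    classOf E (𝔔.under (𝓞 E)).asIdeal ∈ S14.normClasses E M := by
  have hne : (𝔔.under (𝓞 E)).asIdeal ≠ ⊥ := (𝔔.under (𝓞 E)).ne_bot
  refine ⟨⟨𝔔.asIdeal, mem_nonZeroDivisors_of_ne_zero 𝔔.ne_bot⟩,
    ⟨(𝔔.under (𝓞 E)).asIdeal, mem_nonZeroDivisors_of_ne_zero hne⟩, ?_, ?_⟩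
  · simp only
    rw [p7_relNorm_prime, hf, pow_one]
  · unfold classOf
    rw [dif_neg hne]

/-- At most `[M : E]` primes of `M` lie over a given prime of `E`. -/
lemma p7_card_fiber_le (𝔮 : HeightOneSpectrum (𝓞 E)) (T : Finset (HeightOneSpectrum (𝓞 M)))
    (hT : ∀ 𝔔 ∈ T, 𝔔.under (𝓞 E) = 𝔮) : T.card ≤ Module.finrank E M := by
  classical
  have hdvd : ∏ 𝔔 ∈ T, 𝔔.asIdeal ∣ 𝔮.asIdeal.map (algebraMap (𝓞 E) (𝓞 M)) := by
    have := Finset.prod_map T ⟨_, FrobDensity.asIdeal_injective (K := M)⟩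
      (fun I : Ideal (𝓞 M) ↦ I)
    simp only [Function.Embedding.coeFn_mk] at this
    rw [← this]
    refine Finset.prod_primes_dvd _ ?_ ?_
    · intro I hI
      obtain ⟨𝔔, _, rfl⟩ := Finset.mem_map.mp hI
      exact 𝔔.prime
    · intro I hI
      obtain ⟨𝔔, h𝔔, rfl⟩ := Finset.mem_map.mp hI
      simp only [Function.Embedding.coeFn_mk]
      rw [Ideal.dvd_iff_le, Ideal.map_le_iff_le_comap]
      have := hT 𝔔 h𝔔
      rw [← this]
      exact le_rfl
  have hnorm := map_dvd Ideal.absNorm hdvd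
  rw [map_prod, Ideal.absNorm_algebraMap,
    ← IsFractionRing.finrank_eq (𝓞 E) E (𝓞 M) M] at hnorm
  have h2 : 2 ≤ Ideal.absNorm 𝔮.asIdeal := FrobDensity.two_le_absNorm 𝔮
  have hge : ∀ 𝔔 ∈ T, Ideal.absNorm 𝔮.asIdeal ≤ Ideal.absNorm 𝔔.asIdeal := by
    intro 𝔔 h𝔔
    rw [p7_absNorm_prime E M 𝔔, hT 𝔔 h𝔔]
    exact Nat.le_self_pow (p7_inertiaDeg_pos E M 𝔔).ne' _
  have hpos : 0 < Ideal.absNorm 𝔮.asIdeal := by omega
  have hle : Ideal.absNorm 𝔮.asIdeal ^ T.card ≤ Ideal.absNorm 𝔮.asIdeal ^ Module.finrank E M :=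
    calc Ideal.absNorm 𝔮.asIdeal ^ T.card = ∏ _𝔔 ∈ T, Ideal.absNorm 𝔮.asIdeal := by simp
      _ ≤ ∏ 𝔔 ∈ T, Ideal.absNorm 𝔔.asIdeal := Finset.prod_le_prod' hge
      _ ≤ Ideal.absNorm 𝔮.asIdeal ^ Module.finrank E M :=
          Nat.le_of_dvd (pow_pos hpos _) hnorm
  exact (Nat.pow_le_pow_iff_right (by omega)).mp hle

/-- The term of a prime of `M` is bounded by the weight of the prime below plus `N𝔮^(-2)`. -/
lemma p7_term_le (w : HeightOneSpectrum (𝓞 E) → ℝ)
    {s : ℝ} (hs : 1 ≤ s)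
    (hw0 : ∀ 𝔮, 0 ≤ w 𝔮)
    (hwS' : ∀ 𝔮 : HeightOneSpectrum (𝓞 E), classOf E 𝔮.asIdeal ∈ S14.normClasses E M →
      w 𝔮 = FrobDensity.normWeight E s 𝔮.asIdeal)
    (𝔔 : HeightOneSpectrum (𝓞 M)) :
    FrobDensity.normWeight M s 𝔔.asIdeal ≤
      w (𝔔.under (𝓞 E)) + FrobDensity.normWeight E 2 (𝔔.under (𝓞 E)).asIdeal := by
  have hN := p7_absNorm_prime E M 𝔔
  have hfpos := p7_inertiaDeg_pos E M 𝔔
  set f := 𝔔.asIdeal.inertiaDeg (𝓞 E) with hfdef
  set 𝔮 := 𝔔.under (𝓞 E) with h𝔮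
  have hq2 : 2 ≤ Ideal.absNorm 𝔮.asIdeal := FrobDensity.two_le_absNorm 𝔮
  have hq1 : (1 : ℝ) ≤ (Ideal.absNorm 𝔮.asIdeal : ℝ) := by exact_mod_cast (by omega : 1 ≤ _)
  rcases Nat.lt_or_ge f 2 with h1 | h2
  · have hf1 : f = 1 := by omega
    have hmem := p7_mem_normClasses E M 𝔔 hf1
    have : FrobDensity.normWeight M s 𝔔.asIdeal = w 𝔮 := by
      rw [hwS' 𝔮 hmem]
      unfold FrobDensity.normWeight
      rw [hN, hf1, pow_one]
    rw [this]
    have := FrobDensity.normWeight_nonneg (K := E) 2 𝔮.asIdeal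
    linarith
  · have hle : FrobDensity.normWeight M s 𝔔.asIdeal ≤ FrobDensity.normWeight E 2 𝔮.asIdeal := by
      unfold FrobDensity.normWeight
      rw [hN]
      push_cast
      have hpow : (Ideal.absNorm 𝔮.asIdeal : ℝ) ^ 2 ≤ (Ideal.absNorm 𝔮.asIdeal : ℝ) ^ f :=
        pow_le_pow_right₀ hq1 h2
      have hpos2 : (0 : ℝ) < (Ideal.absNorm 𝔮.asIdeal : ℝ) ^ 2 := by positivity
      have hNf1 : (1 : ℝ) ≤ (Ideal.absNorm 𝔮.asIdeal : ℝ) ^ f := one_le_pow₀ hq1
      calc ((Ideal.absNorm 𝔮.asIdeal : ℝ) ^ f) ^ (-s)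
          ≤ ((Ideal.absNorm 𝔮.asIdeal : ℝ) ^ f) ^ (-1 : ℝ) :=
            Real.rpow_le_rpow_of_exponent_le hNf1 (by linarith)
        _ = ((Ideal.absNorm 𝔮.asIdeal : ℝ) ^ f)⁻¹ := Real.rpow_neg_one _
        _ ≤ ((Ideal.absNorm 𝔮.asIdeal : ℝ) ^ 2)⁻¹ := inv_anti₀ hpos2 hpow
        _ = (Ideal.absNorm 𝔮.asIdeal : ℝ) ^ (-2 : ℝ) := by
            rw [Real.rpow_neg (by linarith), ← Real.rpow_natCast]
            norm_num
    have := hw0 𝔮
    linarith

/-- Finite partial sums of the prime sum of `M` are bounded by `n (∑ w + primeSum E 2)`. -/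
lemma p7_finset_sum_le (w : HeightOneSpectrum (𝓞 E) → ℝ) {s : ℝ} (hs : 1 < s)
    (hw0 : ∀ 𝔮, 0 ≤ w 𝔮)
    (hwS' : ∀ 𝔮 : HeightOneSpectrum (𝓞 E), classOf E 𝔮.asIdeal ∈ S14.normClasses E M →
      w 𝔮 = FrobDensity.normWeight E s 𝔮.asIdeal)
    (hsumw : Summable w) (F : Finset (HeightOneSpectrum (𝓞 M))) :
    ∑ 𝔔 ∈ F, FrobDensity.normWeight M s 𝔔.asIdeal ≤
      (Module.finrank E M : ℝ) * (∑' 𝔮, w 𝔮 + FrobDensity.primeSum E 2) := by
  classical
  set g : HeightOneSpectrum (𝓞 E) → ℝ :=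
    fun 𝔮 ↦ w 𝔮 + FrobDensity.normWeight E 2 𝔮.asIdeal with hg
  have hg0 : ∀ 𝔮, 0 ≤ g 𝔮 := fun 𝔮 ↦
    add_nonneg (hw0 𝔮) (FrobDensity.normWeight_nonneg 2 𝔮.asIdeal)
  have hs2 : Summable (fun 𝔮 : HeightOneSpectrum (𝓞 E) ↦ FrobDensity.normWeight E 2 𝔮.asIdeal) :=
    FrobDensity.summable_normWeight_prime E (by norm_num)
  have hgsum : Summable g := hsumw.add hs2
  calc ∑ 𝔔 ∈ F, FrobDensity.normWeight M s 𝔔.asIdeal
      ≤ ∑ 𝔔 ∈ F, g (𝔔.under (𝓞 E)) :=
        Finset.sum_le_sum fun 𝔔 _ ↦ p7_term_le E M w hs.le hw0 hwS' 𝔔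
    _ = ∑ 𝔮 ∈ F.image (fun 𝔔 ↦ 𝔔.under (𝓞 E)),
          (F.filter (fun 𝔔 ↦ 𝔔.under (𝓞 E) = 𝔮)).card • g 𝔮 :=
        Finset.sum_comp g (fun 𝔔 : HeightOneSpectrum (𝓞 M) ↦ 𝔔.under (𝓞 E))
    _ ≤ ∑ 𝔮 ∈ F.image (fun 𝔔 ↦ 𝔔.under (𝓞 E)), (Module.finrank E M : ℝ) * g 𝔮 := by
        refine Finset.sum_le_sum fun 𝔮 _ ↦ ?_
        rw [nsmul_eq_mul]
        refine mul_le_mul_of_nonneg_right ?_ (hg0 𝔮)
        have := p7_card_fiber_le E M 𝔮 (F.filter (fun 𝔔 ↦ 𝔔.under (𝓞 E) = 𝔮))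
          (fun 𝔔 h𝔔 ↦ (Finset.mem_filter.mp h𝔔).2)
        exact_mod_cast this
    _ = (Module.finrank E M : ℝ) * ∑ 𝔮 ∈ F.image (fun 𝔔 ↦ 𝔔.under (𝓞 E)), g 𝔮 := by
        rw [Finset.mul_sum]
    _ ≤ (Module.finrank E M : ℝ) * ∑' 𝔮, g 𝔮 :=
        mul_le_mul_of_nonneg_left (hgsum.sum_le_tsum _ (fun 𝔮 _ ↦ hg0 𝔮)) (Nat.cast_nonneg _)
    _ = (Module.finrank E M : ℝ) * (∑' 𝔮, w 𝔮 + FrobDensity.primeSum E 2) := by
        rw [hg, hsumw.tsum_add hs2]
        rfl

/-- `primeSum M s ≤ n (∑ w + primeSum E 2)`. -/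
lemma p7_primeSum_le (w : HeightOneSpectrum (𝓞 E) → ℝ) {s : ℝ} (hs : 1 < s)
    (hw0 : ∀ 𝔮, 0 ≤ w 𝔮)
    (hwS' : ∀ 𝔮 : HeightOneSpectrum (𝓞 E), classOf E 𝔮.asIdeal ∈ S14.normClasses E M →
      w 𝔮 = FrobDensity.normWeight E s 𝔮.asIdeal)
    (hsumw : Summable w) :
    FrobDensity.primeSum M s ≤
      (Module.finrank E M : ℝ) * (∑' 𝔮, w 𝔮 + FrobDensity.primeSum E 2) := by
  unfold FrobDensity.primeSum
  exact (FrobDensity.summable_normWeight_prime M hs).tsum_le_of_sum_le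
    fun F ↦ p7_finset_sum_le E M w hs hw0 hwS' hsumw F

end P7

/-- **(P7)** `∑_{𝔮 : [𝔮] norm class} N𝔮^(-s) ≥ (1/n) log (1/(s-1)) - B` for `s` close to `1`. -/
theorem normClassPrimeSum : NormClassPrimeSumStatement := by
  intro E M _ _ _ _ _
  obtain ⟨C, δ, hδ, hC⟩ := FrobDensity.exists_bound_primeSum_sub_log M
  have hn : (0 : ℝ) < (Module.finrank E M : ℝ) := by
    exact_mod_cast (Module.finrank_pos : 0 < Module.finrank E M)
  refine ⟨C / (Module.finrank E M : ℝ) + FrobDensity.primeSum E 2, δ, hδ, fun s hs hsδ ↦ ?_⟩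
  set w : HeightOneSpectrum (𝓞 E) → ℝ := fun 𝔮 ↦
    @ite ℝ (classOf E 𝔮.asIdeal ∈ S14.normClasses E M) (Classical.propDecidable _)
      (FrobDensity.normWeight E s 𝔮.asIdeal) 0 with hw
  have hw0 : ∀ 𝔮, 0 ≤ w 𝔮 := by
    intro 𝔮
    simp only [hw]
    split_ifs
    · exact FrobDensity.normWeight_nonneg s 𝔮.asIdeal
    · exact le_rfl
  have hwle : ∀ 𝔮, w 𝔮 ≤ FrobDensity.normWeight E s 𝔮.asIdeal := by
    intro 𝔮
    simp only [hw]
    split_ifs
    · exact le_rfl
    · exact FrobDensity.normWeight_nonneg s 𝔮.asIdeal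
  have hwS' : ∀ 𝔮 : HeightOneSpectrum (𝓞 E), classOf E 𝔮.asIdeal ∈ S14.normClasses E M →
      w 𝔮 = FrobDensity.normWeight E s 𝔮.asIdeal := by
    intro 𝔮 h
    simp only [hw]
    rw [if_pos h]
  have hsumw : Summable w :=
    Summable.of_nonneg_of_le hw0 hwle (FrobDensity.summable_normWeight_prime E hs)
  have hmain := p7_primeSum_le E M w hs hw0 hwS' hsumw
  have hlog := hC s hs hsδ
  rw [abs_le] at hlog
  have h1 : Real.log (1 / (s - 1)) - C ≤
      (Module.finrank E M : ℝ) * (∑' 𝔮, w 𝔮 + FrobDensity.primeSum E 2) := by linarith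
  have h2 : (1 / (Module.finrank E M : ℝ)) * (Real.log (1 / (s - 1)) - C) ≤
      ∑' 𝔮, w 𝔮 + FrobDensity.primeSum E 2 := by
    rw [one_div, inv_mul_le_iff₀ hn]
    exact h1
  have h3 : (1 / (Module.finrank E M : ℝ)) * Real.log (1 / (s - 1)) -
      (C / (Module.finrank E M : ℝ) + FrobDensity.primeSum E 2) ≤ ∑' 𝔮, w 𝔮 := by
    have : (1 / (Module.finrank E M : ℝ)) * (Real.log (1 / (s - 1)) - C) =
        (1 / (Module.finrank E M : ℝ)) * Real.log (1 / (s - 1)) -
          C / (Module.finrank E M : ℝ) := by ring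
    linarith
  exact h3

end Fermat.Agent.S14An
end MergeWrap_S14_Analytic_NormClassPrimes

section MergeWrap_S14_Analytic_LProdLower -- from S14/Analytic/LProdLower.lean

/-!
# S14, H2 Route II, step P8L: the lower bound for `∏_ψ ‖L(s, ψ)‖`

`theorem lProdLower : LProdLowerStatement`, from P5 (`eulerChar`), P6 (`charProd`) and
P7 (`normClassPrimeSum`).

For a finite set `T` of primes, P5 for every character `ψ` of `G = Cl ⧸ N`, multiplied over `ψ`:
`(2 - sieveSum T) ^ |X| ≤ LProd * ∏_{𝔭 ∈ T} ∏_ψ ‖1 - ψ([𝔭]) x_𝔭‖`, `x_𝔭 = N𝔭 ^ (-s)`.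
By P6 the inner product is `≤ 1`, and `= (1 - x_𝔭) ^ h ≤ exp (- h x_𝔭)` if `[𝔭] ∈ N`.  Hence
`(2 - sieveSum T) ^ |X| * exp (h * ∑_{𝔭 ∈ T, [𝔭] ∈ N} x_𝔭) ≤ LProd`; let `T` grow and use P7.
-/

set_option autoImplicit false
set_option linter.style.haveILetI false

open NumberField IsDedekindDomain Filter Topology
open scoped nonZeroDivisors

namespace Fermat.Agent.S14An

/-- `(1 - x) ^ h ≤ exp (- h x)` for `0 ≤ x ≤ 1`. -/
lemma lpl_one_sub_pow_le_exp (h : ℕ) {x : ℝ} (hx1 : x ≤ 1) :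
    (1 - x) ^ h ≤ Real.exp (-((h : ℝ) * x)) := by
  have h1 : 1 - x ≤ Real.exp (-x) := by
    have := Real.add_one_le_exp (-x)
    linarith
  calc (1 - x) ^ h ≤ (Real.exp (-x)) ^ h := pow_le_pow_left₀ (by linarith) h1 h
    _ = Real.exp (-((h : ℝ) * x)) := by
        rw [← Real.exp_nat_mul]; congr 1; ring

/-- The key inequality at a finite level `T`. -/
lemma lpl_finite_level (E : Type) [Field E] [NumberField E]
    (N : Subgroup (ClassGroup (𝓞 E))) {s : ℝ} (hs : 1 < s)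
    (T : Finset (HeightOneSpectrum (𝓞 E)))
    (hT : FrobDensity.sieveSum (FrobDensity.normWeight E s) T ≤ 2) :
    (2 - FrobDensity.sieveSum (FrobDensity.normWeight E s) T) ^
        Nat.card ((ClassGroup (𝓞 E) ⧸ N) →* ℂˣ) *
      Real.exp ((N.index : ℝ) * ∑ 𝔭 ∈ T,
        (open scoped Classical in
          if classOf E 𝔭.asIdeal ∈ N then FrobDensity.normWeight E s 𝔭.asIdeal else 0))
      ≤ LProd E N s := by
  classical
  letI : Fintype (ClassGroup (𝓞 E) ⧸ N) := Fintype.ofFinite _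
  letI : Fintype ((ClassGroup (𝓞 E) ⧸ N) →* ℂˣ) := Fintype.ofFinite _
  set x : HeightOneSpectrum (𝓞 E) → ℝ := fun 𝔭 => FrobDensity.normWeight E s 𝔭.asIdeal with hx
  set g : HeightOneSpectrum (𝓞 E) → (ClassGroup (𝓞 E) ⧸ N) :=
    fun 𝔭 => QuotientGroup.mk' N (classOf E 𝔭.asIdeal) with hg
  have hx0 : ∀ 𝔭, 0 ≤ x 𝔭 := fun 𝔭 => FrobDensity.normWeight_nonneg s _
  have hx1 : ∀ 𝔭, x 𝔭 < 1 := fun 𝔭 => FrobDensity.normWeight_prime_lt_one hs.le 𝔭
  -- the local factor
  set Fac : ((ClassGroup (𝓞 E) ⧸ N) →* ℂˣ) → HeightOneSpectrum (𝓞 E) → ℝ :=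
    fun ψ 𝔭 => ‖1 - twWeight E (fun c => ((liftChar E N ψ c : ℂˣ) : ℂ)) s 𝔭.asIdeal‖ with hFac
  have hFac_eq : ∀ ψ 𝔭, Fac ψ 𝔭 = ‖1 - ((ψ (g 𝔭) : ℂˣ) : ℂ) * ((x 𝔭 : ℝ) : ℂ)‖ := by
    intro ψ 𝔭
    rfl
  -- P5 for every ψ
  have hP5 : ∀ ψ : (ClassGroup (𝓞 E) ⧸ N) →* ℂˣ,
      2 - FrobDensity.sieveSum (FrobDensity.normWeight E s) T ≤
        ‖LVal E (fun c => ((liftChar E N ψ c : ℂˣ) : ℂ)) s‖ * ∏ 𝔭 ∈ T, Fac ψ 𝔭 :=
    fun ψ => eulerChar E (liftChar E N ψ) s hs T
  -- multiply over ψ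
  have hprod : (2 - FrobDensity.sieveSum (FrobDensity.normWeight E s) T) ^
        Fintype.card ((ClassGroup (𝓞 E) ⧸ N) →* ℂˣ) ≤
      ∏ ψ : (ClassGroup (𝓞 E) ⧸ N) →* ℂˣ,
        (‖LVal E (fun c => ((liftChar E N ψ c : ℂˣ) : ℂ)) s‖ * ∏ 𝔭 ∈ T, Fac ψ 𝔭) := by
    rw [← Finset.card_univ, ← Finset.prod_const]
    exact Finset.prod_le_prod (fun ψ _ => by linarith) (fun ψ _ => hP5 ψ)
  rw [Finset.prod_mul_distrib, Finset.prod_comm] at hprod
  -- P6 at every prime
  have hP6 : ∀ 𝔭 : HeightOneSpectrum (𝓞 E),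
      ∏ ψ : (ClassGroup (𝓞 E) ⧸ N) →* ℂˣ, Fac ψ 𝔭 ≤
        Real.exp (-((N.index : ℝ) *
          (if classOf E 𝔭.asIdeal ∈ N then x 𝔭 else 0))) := by
    intro 𝔭
    have h6 := charProd (ClassGroup (𝓞 E) ⧸ N) (g 𝔭) (x 𝔭) (hx0 𝔭) (hx1 𝔭)
    simp only [hFac_eq]
    by_cases hmem : classOf E 𝔭.asIdeal ∈ N
    · have hg1 : g 𝔭 = 1 := by
        simpa [hg] using (QuotientGroup.eq_one_iff (N := N) (classOf E 𝔭.asIdeal)).mpr hmem
      rw [h6.2 hg1, if_pos hmem]
      have hidx : Fintype.card (ClassGroup (𝓞 E) ⧸ N) = N.index := by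
        rw [Subgroup.index, Nat.card_eq_fintype_card]
      rw [hidx]
      exact lpl_one_sub_pow_le_exp _ (hx1 𝔭).le
    · rw [if_neg hmem]
      simpa using h6.1
  have hFac_nonneg : ∀ 𝔭 : HeightOneSpectrum (𝓞 E),
      0 ≤ ∏ ψ : (ClassGroup (𝓞 E) ⧸ N) →* ℂˣ, Fac ψ 𝔭 :=
    fun 𝔭 => Finset.prod_nonneg (fun ψ _ => norm_nonneg _)
  have hLnonneg : 0 ≤ ∏ ψ : (ClassGroup (𝓞 E) ⧸ N) →* ℂˣ,
      ‖LVal E (fun c => ((liftChar E N ψ c : ℂˣ) : ℂ)) s‖ :=
    Finset.prod_nonneg (fun ψ _ => norm_nonneg _)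
  have hloc : ∏ 𝔭 ∈ T, ∏ ψ : (ClassGroup (𝓞 E) ⧸ N) →* ℂˣ, Fac ψ 𝔭 ≤
      Real.exp (-((N.index : ℝ) * ∑ 𝔭 ∈ T,
          (if classOf E 𝔭.asIdeal ∈ N then x 𝔭 else 0))) := by
    calc ∏ 𝔭 ∈ T, ∏ ψ : (ClassGroup (𝓞 E) ⧸ N) →* ℂˣ, Fac ψ 𝔭
        ≤ ∏ 𝔭 ∈ T, Real.exp (-((N.index : ℝ) *
            (if classOf E 𝔭.asIdeal ∈ N then x 𝔭 else 0))) :=
          Finset.prod_le_prod (fun 𝔭 _ => hFac_nonneg 𝔭) (fun 𝔭 _ => hP6 𝔭)
      _ = Real.exp (-((N.index : ℝ) * ∑ 𝔭 ∈ T,
            (if classOf E 𝔭.asIdeal ∈ N then x 𝔭 else 0))) := by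
          rw [← Real.exp_sum, Finset.mul_sum, Finset.sum_neg_distrib]
  have hLP : LProd E N s = ∏ ψ : (ClassGroup (𝓞 E) ⧸ N) →* ℂˣ,
      ‖LVal E (fun c => ((liftChar E N ψ c : ℂˣ) : ℂ)) s‖ := by
    unfold LProd
    exact finprod_eq_prod_of_fintype _
  rw [hLP, Nat.card_eq_fintype_card]
  set S : ℝ := ∑ 𝔭 ∈ T, (if classOf E 𝔭.asIdeal ∈ N then x 𝔭 else 0) with hS
  have h1 : (2 - FrobDensity.sieveSum (FrobDensity.normWeight E s) T) ^
        Fintype.card ((ClassGroup (𝓞 E) ⧸ N) →* ℂˣ) ≤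
      (∏ ψ : (ClassGroup (𝓞 E) ⧸ N) →* ℂˣ,
        ‖LVal E (fun c => ((liftChar E N ψ c : ℂˣ) : ℂ)) s‖) *
        Real.exp (-((N.index : ℝ) * S)) :=
    hprod.trans (mul_le_mul_of_nonneg_left hloc hLnonneg)
  have hexp : Real.exp (-((N.index : ℝ) * S)) * Real.exp ((N.index : ℝ) * S) = 1 := by
    rw [← Real.exp_add]; simp
  calc (2 - FrobDensity.sieveSum (FrobDensity.normWeight E s) T) ^
        Fintype.card ((ClassGroup (𝓞 E) ⧸ N) →* ℂˣ) * Real.exp ((N.index : ℝ) * S)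
      ≤ ((∏ ψ : (ClassGroup (𝓞 E) ⧸ N) →* ℂˣ,
        ‖LVal E (fun c => ((liftChar E N ψ c : ℂˣ) : ℂ)) s‖) *
        Real.exp (-((N.index : ℝ) * S))) * Real.exp ((N.index : ℝ) * S) :=
        mul_le_mul_of_nonneg_right h1 (Real.exp_pos _).le
    _ = ∏ ψ : (ClassGroup (𝓞 E) ⧸ N) →* ℂˣ,
        ‖LVal E (fun c => ((liftChar E N ψ c : ℂˣ) : ℂ)) s‖ := by
        rw [mul_assoc, hexp, mul_one]

/-- **(P8L)** lower bound for `LProd` near `s = 1`. -/
theorem lProdLower : LProdLowerStatement := by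
  intro E M _ _ _ _ _ N hN
  classical
  obtain ⟨B, δ, hδ, hB⟩ := normClassPrimeSum E M
  refine ⟨Real.exp (-((N.index : ℝ) * B)), δ, Real.exp_pos _, hδ, ?_⟩
  intro s hs1 hs2
  have hP7 := hB s hs1 hs2
  set x : HeightOneSpectrum (𝓞 E) → ℝ := fun 𝔭 => FrobDensity.normWeight E s 𝔭.asIdeal with hx
  set fN : HeightOneSpectrum (𝓞 E) → ℝ :=
    fun 𝔭 => if classOf E 𝔭.asIdeal ∈ N then x 𝔭 else 0 with hfN
  set fM : HeightOneSpectrum (𝓞 E) → ℝ :=
    fun 𝔭 => if classOf E 𝔭.asIdeal ∈ S14.normClasses E M then x 𝔭 else 0 with hfM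
  have hx0 : ∀ 𝔭, 0 ≤ x 𝔭 := fun 𝔭 => FrobDensity.normWeight_nonneg s _
  have hsx : Summable x := FrobDensity.summable_normWeight_prime E hs1
  have hfN0 : ∀ 𝔭, 0 ≤ fN 𝔭 := fun 𝔭 => by
    simp only [hfN]; split_ifs
    · exact hx0 𝔭
    · exact le_rfl
  have hfM0 : ∀ 𝔭, 0 ≤ fM 𝔭 := fun 𝔭 => by
    simp only [hfM]; split_ifs
    · exact hx0 𝔭
    · exact le_rfl
  have hfNx : ∀ 𝔭, fN 𝔭 ≤ x 𝔭 := fun 𝔭 => by
    simp only [hfN]; split_ifs
    · exact le_rfl
    · exact hx0 𝔭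
  have hfMN : ∀ 𝔭, fM 𝔭 ≤ fN 𝔭 := fun 𝔭 => by
    simp only [hfM, hfN]
    by_cases h1 : classOf E 𝔭.asIdeal ∈ S14.normClasses E M
    · rw [if_pos h1, if_pos (hN _ h1)]
    · rw [if_neg h1]
      split_ifs
      · exact hx0 𝔭
      · exact le_rfl
  have hsN : Summable fN := Summable.of_nonneg_of_le hfN0 hfNx hsx
  have hsM : Summable fM := Summable.of_nonneg_of_le hfM0 hfMN hsN
  have hle : ∑' 𝔭, fM 𝔭 ≤ ∑' 𝔭, fN 𝔭 := hsM.tsum_le_tsum hfMN hsN
  have hP7' : (1 / (Module.finrank E M : ℝ)) * Real.log (1 / (s - 1)) - B ≤ ∑' 𝔭, fM 𝔭 := by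
    refine hP7.trans (le_of_eq ?_)
    refine tsum_congr fun 𝔭 => ?_
    simp only [hfM, hx]
  -- the limit over `T`
  have hlim1 : Tendsto (FrobDensity.sieveSum (FrobDensity.normWeight E s)) atTop (𝓝 1) :=
    FrobDensity.tendsto_sieveSum (fun I => FrobDensity.normWeight_nonneg s I)
      (FrobDensity.normWeight_top s) (FrobDensity.summable_normWeight E hs1)
  have hlim2 : Tendsto (fun T : Finset (HeightOneSpectrum (𝓞 E)) => ∑ 𝔭 ∈ T, fN 𝔭) atTop
      (𝓝 (∑' 𝔭, fN 𝔭)) := hsN.hasSum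
  have hlim : Tendsto (fun T : Finset (HeightOneSpectrum (𝓞 E)) =>
      (2 - FrobDensity.sieveSum (FrobDensity.normWeight E s) T) ^
        Nat.card ((ClassGroup (𝓞 E) ⧸ N) →* ℂˣ) *
      Real.exp ((N.index : ℝ) * ∑ 𝔭 ∈ T, fN 𝔭)) atTop
      (𝓝 ((2 - 1) ^ Nat.card ((ClassGroup (𝓞 E) ⧸ N) →* ℂˣ) *
        Real.exp ((N.index : ℝ) * ∑' 𝔭, fN 𝔭))) :=
    ((tendsto_const_nhds.sub hlim1).pow _).mul
      ((Real.continuous_exp.tendsto _).comp (tendsto_const_nhds.mul hlim2))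
  have hev : ∀ᶠ T in atTop,
      FrobDensity.sieveSum (FrobDensity.normWeight E s) T ≤ 2 :=
    hlim1.eventually (eventually_le_nhds (by norm_num : (1 : ℝ) < 2))
  have hbound : (2 - 1) ^ Nat.card ((ClassGroup (𝓞 E) ⧸ N) →* ℂˣ) *
        Real.exp ((N.index : ℝ) * ∑' 𝔭, fN 𝔭) ≤ LProd E N s := by
    refine le_of_tendsto hlim (hev.mono fun T hT => ?_)
    have := lpl_finite_level E N hs1 T hT
    convert this using 4
  have hbound' : Real.exp ((N.index : ℝ) * ∑' 𝔭, fN 𝔭) ≤ LProd E N s := by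
    have h21 : ((2 : ℝ) - 1) = 1 := by norm_num
    rwa [h21, one_pow, one_mul] at hbound
  have hpos : 0 < 1 / (s - 1) := by
    apply div_pos one_pos; linarith
  calc Real.exp (-((N.index : ℝ) * B)) *
        (1 / (s - 1)) ^ ((N.index : ℝ) / (Module.finrank E M : ℝ))
      = Real.exp ((N.index : ℝ) *
          ((1 / (Module.finrank E M : ℝ)) * Real.log (1 / (s - 1)) - B)) := by
        rw [Real.rpow_def_of_pos hpos, ← Real.exp_add]
        congr 1
        ring
    _ ≤ Real.exp ((N.index : ℝ) * ∑' 𝔭, fM 𝔭) :=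
        Real.exp_le_exp.mpr (mul_le_mul_of_nonneg_left hP7' (Nat.cast_nonneg _))
    _ ≤ Real.exp ((N.index : ℝ) * ∑' 𝔭, fN 𝔭) :=
        Real.exp_le_exp.mpr (mul_le_mul_of_nonneg_left hle (Nat.cast_nonneg _))
    _ ≤ LProd E N s := hbound'

end Fermat.Agent.S14An
end MergeWrap_S14_Analytic_LProdLower

section MergeWrap_S14_Analytic_LProdUpper -- from S14/Analytic/LProdUpper.lean

/-!
# S14, H2 Route II, step P8U: the upper bound `LProd E N s ≤ C / (s - 1)` (helper70)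
-/

set_option autoImplicit false

open NumberField Filter Topology
open scoped nonZeroDivisors

namespace Fermat.Agent.S14An

open Fermat.Agent.FrobDensity

section

variable {K : Type} [Field K] [NumberField K]

lemma p8u_norm_LVal_le_zetaSum (χ : ClassGroup (𝓞 K) →* ℂˣ) {s : ℝ} (hs : 1 < s) :
    ‖LVal K (fun c => (χ c : ℂ)) s‖ ≤ zetaSum K s := by
  unfold LVal zetaSum
  have hsum : Summable (fun I => ‖twWeight K (fun c => (χ c : ℂ)) s I‖) := by
    simp_rw [norm_twWeight]; exact summable_normWeight K hs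
  calc ‖∑' I, twWeight K (fun c => (χ c : ℂ)) s I‖
      ≤ ∑' I, ‖twWeight K (fun c => (χ c : ℂ)) s I‖ := norm_tsum_le_tsum_norm hsum
    _ = ∑' I, normWeight K s I := by simp_rw [norm_twWeight]

lemma p8u_normWeight_anti {s s' : ℝ} (hs : 0 < s) (h : s ≤ s') (I : Ideal (𝓞 K)) :
    normWeight K s' I ≤ normWeight K s I := by
  unfold normWeight
  rcases Nat.eq_zero_or_pos (Ideal.absNorm I) with h0 | h0
  · rw [h0, Nat.cast_zero, Real.zero_rpow (by linarith), Real.zero_rpow (by linarith)]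
  · exact Real.rpow_le_rpow_of_exponent_le (by exact_mod_cast h0) (by linarith)

variable (K) in
lemma p8u_zetaSum_anti {s s' : ℝ} (hs : 1 < s) (h : s ≤ s') : zetaSum K s' ≤ zetaSum K s :=
  (summable_normWeight K (lt_of_lt_of_le hs h)).tsum_le_tsum
    (fun I => p8u_normWeight_anti (by linarith) h I) (summable_normWeight K hs)

variable (K) in
lemma p8u_exists_zetaSum_le :
    ∃ C₀ : ℝ, 0 ≤ C₀ ∧ ∀ s : ℝ, 1 < s → s ≤ 2 → zetaSum K s ≤ C₀ / (s - 1) := by
  have h := tendsto_sub_one_mul_zetaSum K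
  have hev : ∀ᶠ s : ℝ in 𝓝[>] 1, (s - 1) * zetaSum K s < dedekindZeta_residue K + 1 :=
    h.eventually_lt_const (by linarith)
  obtain ⟨u, hu1, hu⟩ := mem_nhdsGT_iff_exists_Ioo_subset.mp hev
  have hu1' : (1 : ℝ) < u := hu1
  refine ⟨max (dedekindZeta_residue K + 1) (zetaSum K u), ?_, ?_⟩
  · exact le_max_of_le_right (le_trans zero_le_one (one_le_zetaSum K hu1'))
  · intro s hs hs2
    rw [le_div_iff₀ (by linarith), mul_comm]
    by_cases hsu : s < u
    · exact (le_of_lt (hu ⟨hs, hsu⟩)).trans (le_max_left _ _)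
    · rw [not_lt] at hsu
      have h1 : zetaSum K s ≤ zetaSum K u := p8u_zetaSum_anti K hu1' hsu
      have h2 : 0 ≤ zetaSum K s := le_trans zero_le_one (one_le_zetaSum K hs)
      have h3 : (s - 1) * zetaSum K s ≤ 1 * zetaSum K s :=
        mul_le_mul_of_nonneg_right (by linarith) h2
      calc (s - 1) * zetaSum K s ≤ 1 * zetaSum K s := h3
        _ = zetaSum K s := one_mul _
        _ ≤ zetaSum K u := h1
        _ ≤ _ := le_max_right _ _

lemma p8u_sum_liftChar_eq_zero (N : Subgroup (ClassGroup (𝓞 K)))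
    (ψ : (ClassGroup (𝓞 K) ⧸ N) →* ℂˣ) (hψ : ψ ≠ 1) :
    ∑ c : ClassGroup (𝓞 K), ((liftChar K N ψ c : ℂˣ) : ℂ) = 0 := by
  have hne : ((Units.coeHom ℂ).comp (liftChar K N ψ)) ≠ 1 := by
    intro h
    apply hψ
    refine MonoidHom.ext fun g => ?_
    obtain ⟨c, rfl⟩ := QuotientGroup.mk_surjective g
    have := DFunLike.congr_fun h c
    simpa [liftChar] using this
  have := sum_hom_units_eq_zero ((Units.coeHom ℂ).comp (liftChar K N ψ)) hne
  simpa using this

end

/-- **(P8U)** upper bound for `LProd` on `(1, 2]`. -/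
theorem lProdUpper_of (h4 : LBoundStatement) : LProdUpperStatement := by
  intro E _ _ N
  classical
  let _ : Fintype ((ClassGroup (𝓞 E) ⧸ N) →* ℂˣ) := Fintype.ofFinite _
  obtain ⟨C₀, hC₀, hζ⟩ := p8u_exists_zetaSum_le E
  have hB : ∀ ψ : (ClassGroup (𝓞 E) ⧸ N) →* ℂˣ, ∃ B : ℝ, ψ ≠ 1 →
      ∀ s : ℝ, 1 < s → s ≤ 2 → ‖LVal E (fun c => ((liftChar E N ψ c : ℂˣ) : ℂ)) s‖ ≤ B := by
    intro ψ
    by_cases hψ : ψ = 1
    · exact ⟨0, fun h => absurd hψ h⟩
    · obtain ⟨B, hB⟩ := h4 E (fun c => ((liftChar E N ψ c : ℂˣ) : ℂ))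
        (p8u_sum_liftChar_eq_zero N ψ hψ)
      exact ⟨B, fun _ => hB⟩
  choose B hB using hB
  refine ⟨C₀ * ∏ ψ ∈ (Finset.univ : Finset ((ClassGroup (𝓞 E) ⧸ N) →* ℂˣ)).erase 1, B ψ, ?_⟩
  intro s hs hs2
  unfold LProd
  rw [finprod_eq_prod_of_fintype,
    ← Finset.mul_prod_erase Finset.univ _ (Finset.mem_univ (1 : (ClassGroup (𝓞 E) ⧸ N) →* ℂˣ))]
  have h1 : ‖LVal E (fun c => ((liftChar E N 1 c : ℂˣ) : ℂ)) s‖ ≤ C₀ / (s - 1) :=
    (p8u_norm_LVal_le_zetaSum (liftChar E N 1) hs).trans (hζ s hs hs2)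
  have h2 : ∏ ψ ∈ (Finset.univ : Finset ((ClassGroup (𝓞 E) ⧸ N) →* ℂˣ)).erase 1,
        ‖LVal E (fun c => ((liftChar E N ψ c : ℂˣ) : ℂ)) s‖ ≤
      ∏ ψ ∈ (Finset.univ : Finset ((ClassGroup (𝓞 E) ⧸ N) →* ℂˣ)).erase 1, B ψ := by
    refine Finset.prod_le_prod (fun ψ _ => norm_nonneg _) (fun ψ hψ => ?_)
    exact hB ψ (Finset.ne_of_mem_erase hψ) s hs hs2
  have h3 : 0 ≤ ∏ ψ ∈ (Finset.univ : Finset ((ClassGroup (𝓞 E) ⧸ N) →* ℂˣ)).erase 1,
        ‖LVal E (fun c => ((liftChar E N ψ c : ℂˣ) : ℂ)) s‖ :=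
    Finset.prod_nonneg (fun ψ _ => norm_nonneg _)
  have h4' : 0 ≤ C₀ / (s - 1) := div_nonneg hC₀ (by linarith)
  calc _ ≤ C₀ / (s - 1) * ∏ ψ ∈ (Finset.univ : Finset ((ClassGroup (𝓞 E) ⧸ N) →* ℂˣ)).erase 1,
        B ψ := mul_le_mul h1 h2 h3 h4'
    _ = _ := by ring

end Fermat.Agent.S14An
end MergeWrap_S14_Analytic_LProdUpper

section MergeWrap_S14_Analytic_SecondIneq -- from S14/Analytic/SecondIneq.lean

set_option autoImplicit false

open NumberField Filter Topology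
open scoped nonZeroDivisors

namespace Fermat.Agent.S14An

/-- **(P8F)** the two bounds for `LProd` give the second inequality. -/
theorem secondIneq_of (hL : LProdLowerStatement) (hU : LProdUpperStatement) :
    S14.SecondIneq := by
  intro E M _ _ _ _ _ _ N hN
  obtain ⟨c, δ, hc, hδ, hlow⟩ := hL E M N hN
  obtain ⟨C, hup⟩ := hU E N
  by_contra hcon
  rw [not_le] at hcon
  have hn0 : 0 < Module.finrank E M := Module.finrank_pos
  have hnr : (0 : ℝ) < (Module.finrank E M : ℝ) := by exact_mod_cast hn0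
  have hhn : (Module.finrank E M : ℝ) < (N.index : ℝ) := by exact_mod_cast hcon
  set α : ℝ := (N.index : ℝ) / (Module.finrank E M : ℝ) - 1 with hα
  have hαpos : 0 < α := by
    rw [hα, sub_pos, one_lt_div hnr]
    exact hhn
  have hev : ∀ᶠ u : ℝ in atTop, C / c < u ^ α ∧ max (1 / δ) 1 < u :=
    ((tendsto_rpow_atTop hαpos).eventually_gt_atTop (C / c)).and
      (eventually_gt_atTop (max (1 / δ) 1))
  obtain ⟨u, hu1, hu2⟩ := hev.exists
  have hu_gt1 : 1 < u := lt_of_le_of_lt (le_max_right _ _) hu2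
  have hu_gtδ : 1 / δ < u := lt_of_le_of_lt (le_max_left _ _) hu2
  have hupos : 0 < u := by linarith
  set s : ℝ := 1 + 1 / u with hs
  have hs1 : 1 < s := by rw [hs]; have : 0 < 1 / u := by positivity
                         linarith
  have hsδ : s < 1 + δ := by
    rw [hs]
    have : 1 / u < δ := by
      rw [div_lt_iff₀ hupos]
      rw [div_lt_iff₀ hδ] at hu_gtδ
      linarith
    linarith
  have hs2 : s ≤ 2 := by
    rw [hs]
    have : 1 / u ≤ 1 := by rw [div_le_one hupos]; exact hu_gt1.le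
    linarith
  have hsu : 1 / (s - 1) = u := by
    rw [hs]; field_simp; simp
  have h1 := hlow s hs1 hsδ
  have h2 := hup s hs1 hs2
  rw [hsu] at h1
  have h3 : C / (s - 1) = C * u := by rw [← hsu]; ring
  rw [h3] at h2
  have h4 : c * u ^ ((N.index : ℝ) / (Module.finrank E M : ℝ)) ≤ C * u := h1.trans h2
  have h5 : u ^ ((N.index : ℝ) / (Module.finrank E M : ℝ)) = u ^ α * u := by
    have : (N.index : ℝ) / (Module.finrank E M : ℝ) = α + 1 := by rw [hα]; ring
    rw [this, Real.rpow_add hupos, Real.rpow_one]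
  rw [h5] at h4
  have h6 : c * u ^ α ≤ C := by
    have : c * u ^ α * u ≤ C * u := by linarith [h4, mul_assoc c (u ^ α) u]
    exact le_of_mul_le_mul_right this hupos
  have h7 : u ^ α ≤ C / c := by
    rw [le_div_iff₀ hc]; linarith
  linarith

end Fermat.Agent.S14An
end MergeWrap_S14_Analytic_SecondIneq

section MergeWrap_S14_Analytic_SecondIneqFinal -- from S14/Analytic/SecondIneqFinal.lean

/-!
# S14, H2 (second inequality), Route II (analytic): the unconditional statement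

`secondIneq : Fermat.Agent.S14.SecondIneq` and `secondIneqKummer : Fermat.Agent.S14.SecondIneqKummer`,
assembled from the work packages P1–P8 of `NOTES/blueprint-S14-H2-analytic.md`:

* P1 `latticeCount` (helper70), P2 `normLeOneFrontier` (helper47),
  P3 `classCount_of` (helper63, helper2), P4 `lBound_of` (helper50),
* P5 `eulerChar` (helper59), P6 `charProd` (helper69), P7 `normClassPrimeSum` (helper77),
* P8L `lProdLower` (helper47), P8U `lProdUpper_of`, P8F `secondIneq_of` (helper70).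
-/

set_option autoImplicit false

namespace Fermat.Agent.S14An

/-- P3, unconditional. -/
theorem classCountStatement : ClassCountStatement :=
  classCount_of latticeCount normLeOneFrontier

/-- P4, unconditional. -/
theorem lBoundStatement : LBoundStatement :=
  lBound_of classCountStatement

/-- P8U, unconditional. -/
theorem lProdUpper : LProdUpperStatement :=
  lProdUpper_of lBoundStatement

/-- **(H2) The second inequality** of class field theory, in the form of `S14/Interface.lean`. -/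
theorem secondIneq : Fermat.Agent.S14.SecondIneq :=
  secondIneq_of lProdLower lProdUpper

/-- **(H2')** the Kummer case used by the crossing argument. -/
theorem secondIneqKummer : Fermat.Agent.S14.SecondIneqKummer :=
  Fermat.Agent.S14.SecondIneq.kummer secondIneq

end Fermat.Agent.S14An
end MergeWrap_S14_Analytic_SecondIneqFinal
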